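import Fermat.Agent.S27x.Spec.GaussNorm.Core

/-!
# P-S27 block D3: weighted models

`ev x f u = ∑ i, u i (x) * f i` is the evaluation of a tuple `u : ι → R[X]` at an element `x` and a
family `f : ι → L` of an `R`-algebra `L`.  `IsModel W x f i₀ P` (over a field `k`, `L` a field
extension): the family `f` is a basis over `k[x]` of a subring `B = ⊕ k[x] f_i` of `L` with
weighted structure constants `P`, `f i₀ = 1`, and `L = Frac B`.
-/

set_option autoImplicit false
set_option linter.unusedSectionVars false

namespace Fermat.Agent.S27x.Spec.GaussNorm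

open Polynomial

variable {ι : Type*} [Fintype ι]

section ev

variable {R L : Type*} [CommRing R] [CommRing L] [Algebra R L]

/-- Evaluation of a tuple of polynomials: `∑ i, u i (x) * f i`. -/
noncomputable def ev (x : L) (f : ι → L) (u : ι → R[X]) : L := ∑ i, aeval x (u i) * f i

variable (x : L) (f : ι → L)

theorem ev_zero : ev x f (0 : ι → R[X]) = 0 := by simp [ev]

theorem ev_add (u w : ι → R[X]) : ev x f (u + w) = ev x f u + ev x f w := by
  simp [ev, add_mul, Finset.sum_add_distrib]

theorem ev_neg (u : ι → R[X]) : ev x f (-u) = -ev x f u := by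
  simp [ev, Finset.sum_neg_distrib]

theorem ev_sub (u w : ι → R[X]) : ev x f (u - w) = ev x f u - ev x f w := by
  simp [ev, sub_mul, Finset.sum_sub_distrib]

theorem ev_smul (c : R[X]) (u : ι → R[X]) : ev x f (c • u) = aeval x c * ev x f u := by
  simp [ev, Finset.mul_sum, mul_assoc]

theorem ev_single [DecidableEq ι] (i : ι) (p : R[X]) :
    ev x f (Pi.single i p) = aeval x p * f i := by
  unfold ev
  rw [Finset.sum_eq_single i]
  · rw [Pi.single_eq_same]
  · intro j _ hj
    rw [Pi.single_eq_of_ne hj, map_zero, zero_mul]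
  · intro h; exact absurd (Finset.mem_univ _) h

theorem ev_sum {S : Type*} (s : Finset S) (u : S → ι → R[X]) :
    ev x f (∑ a ∈ s, u a) = ∑ a ∈ s, ev x f (u a) := by
  classical
  induction s using Finset.induction_on with
  | empty => simp [ev_zero]
  | insert a s ha ih => rw [Finset.sum_insert ha, Finset.sum_insert ha, ev_add, ih]

/-- Evaluation is compatible with base change of the coefficient ring. -/
theorem ev_map {R' : Type*} [CommRing R'] [Algebra R R'] [Algebra R' L] [IsScalarTower R R' L]
    (u : ι → R[X]) : ev x f (fun i => (u i).map (algebraMap R R')) = ev x f u := by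
  unfold ev
  refine Finset.sum_congr rfl fun i _ => ?_
  rw [aeval_map_algebraMap]

/-- Evaluation commutes with ring homomorphisms compatible with the coefficient map. -/
theorem map_ev {R' L' : Type*} [CommRing R'] [CommRing L'] [Algebra R' L'] (g : R →+* R')
    (h : L →+* L') (hgh : ∀ r, h (algebraMap R L r) = algebraMap R' L' (g r))
    (u : ι → R[X]) :
    h (ev x f u) = ev (h x) (fun i => h (f i)) (fun i => (u i).map g) := by
  unfold ev
  rw [map_sum]
  refine Finset.sum_congr rfl fun i _ => ?_
  rw [map_mul]
  congr 1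
  rw [aeval_def, aeval_def, eval₂_map, hom_eval₂]
  congr 1
  ext r
  exact hgh r

/-- The product formula: if `f i * f j = ∑ l, P i j l (x) * f l` then `ev` turns the formal
product into the product. -/
theorem ev_mul_ev {P : ι → ι → ι → R[X]}
    (hmul : ∀ i j, f i * f j = ∑ l, aeval x (P i j l) * f l) (u w : ι → R[X]) :
    ev x f u * ev x f w = ev x f (star P u w) := by
  unfold ev star
  rw [Finset.sum_mul_sum]
  simp only [map_sum, map_mul, Finset.sum_mul]
  have : ∀ i j, aeval x (u i) * f i * (aeval x (w j) * f j) =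
      ∑ l, aeval x (u i) * aeval x (w j) * aeval x (P i j l) * f l := by
    intro i j
    rw [mul_mul_mul_comm, hmul, Finset.mul_sum]
    refine Finset.sum_congr rfl fun l _ => ?_
    ring
  simp_rw [this]
  rw [Finset.sum_comm (s := Finset.univ) (t := Finset.univ)
    (f := fun l i => ∑ j, aeval x (u i) * aeval x (w j) * aeval x (P i j l) * f l)]
  refine Finset.sum_congr rfl fun i _ => ?_
  rw [Finset.sum_comm]

end ev

/-- A weighted model over a field `k`: `B = ⊕ k[x] f_i` is a subring of the field `L` with weighted
structure constants `P`, and `L = Frac B`. -/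
structure IsModel (W : Weights ι) {k L : Type*} [Field k] [Field L] [Algebra k L]
    (x : L) (f : ι → L) (i₀ : ι) (P : ι → ι → ι → k[X]) : Prop where
  m_zero : W.m i₀ = 0
  f_one : f i₀ = 1
  sc : IsStructConst W P
  mul : ∀ i j, f i * f j = ∑ l, aeval x (P i j l) * f l
  indep : ∀ p : ι → k[X], ev x f p = 0 → p = 0
  frac : ∀ z : L, ∃ p q : ι → k[X], q ≠ 0 ∧ z * ev x f q = ev x f p

namespace IsModel

variable {W : Weights ι} {k L : Type*} [Field k] [Field L] [Algebra k L]
  {x : L} {f : ι → L} {i₀ : ι} {P : ι → ι → ι → k[X]} (M : IsModel W x f i₀ P)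
include M

theorem ev_mul (u w : ι → k[X]) : ev x f u * ev x f w = ev x f (star P u w) :=
  ev_mul_ev x f M.mul u w

theorem ev_injective : Function.Injective (ev x f : (ι → k[X]) → L) := by
  intro u w h
  have := M.indep (u - w) (by rw [ev_sub, h, sub_self])
  exact sub_eq_zero.mp this

theorem ev_ne_zero {u : ι → k[X]} (hu : u ≠ 0) : ev x f u ≠ 0 :=
  fun h => hu (M.indep u h)

theorem ev_one [DecidableEq ι] : ev x f (Pi.single i₀ (1 : k[X])) = 1 := by
  rw [ev_single, map_one, one_mul, M.f_one]

theorem ev_C [DecidableEq ι] (c : k) : ev x f (Pi.single i₀ (C c)) = algebraMap k L c := by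
  rw [ev_single, aeval_C, M.f_one, mul_one]

theorem ev_poly [DecidableEq ι] (p : k[X]) : ev x f (Pi.single i₀ p) = aeval x p := by
  rw [ev_single, M.f_one, mul_one]

/-- `x` is transcendental over `k`. -/
theorem transcendental : Transcendental k x := by
  classical
  rw [transcendental_iff]
  intro p hp
  have h1 : ev x f (Pi.single i₀ p) = 0 := by rw [M.ev_poly, hp]
  have h2 := M.indep _ h1
  have := congrFun h2 i₀
  rwa [Pi.single_eq_same] at this

/-- The weighted degree is multiplicative on the model. -/
theorem wdeg_star {u w : ι → k[X]} (hu : u ≠ 0) (hw : w ≠ 0) :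
    W.wdeg (star P u w) = W.wdeg u + W.wdeg w :=
  M.sc.wdeg_star_eq W hu hw

theorem star_ne_zero {u w : ι → k[X]} (hu : u ≠ 0) (hw : w ≠ 0) : star P u w ≠ 0 :=
  M.sc.star_ne_zero W hu hw

end IsModel

end Fermat.Agent.S27x.Spec.GaussNorm
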