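import Fermat.Agent.S27x.Spec.GaussNorm.Ring
import Fermat.Agent.Gateway.C0.Count

/-!
# P-S27 block D3: the reduction of an integral Apéry model

`D.κ` is the residue field of the Gauss valuation ring `D.O`, `D.res : D.O →+* D.κ` the residue
map, `D.xb`, `D.fb i` the residues of `x`, `f i`.  For a field `k` with a surjection `π : A →+* k`
and an algebra structure `Algebra k D.κ` compatible with `π` (`D.Compat π`; one such structure is
`D.resAlgebra π hπ`):

* `D.res_ev` : `res (∑ p_i(x) f_i) = ∑ p̄_i(x̄) f̄_i`;
* `D.modelb` : `IsModel D.W D.xb D.fb D.i₀ P̄` – the reduction `B0bar = ⊕ k[x̄] f̄_i` is a domain with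
  the reduced structure constants, `x̄` is transcendental and `κ = Frac B0bar`;
* `D.redSetup` : the `Gateway.C0.RedSetup A D.O k D.κ`;
* `D.exists_lift` : good lifts `B0bar → B_A` preserving all degrees.
-/

set_option autoImplicit false
set_option linter.unusedSectionVars false
set_option linter.style.haveILetI false

namespace Fermat.Agent.S27x.Spec.GaussNorm

open Polynomial IsLocalRing

variable {K : Type*} [Field K] {A : ValuationSubring K} {F : Type*} [Field F] [Algebra K F]
  {ι : Type*} [Fintype ι]

namespace AperyData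

variable (D : AperyData A F ι)

/-- The residue field of the Gauss valuation ring. -/
abbrev κ : Type _ := ResidueField D.O

/-- The residue map `O → κ`. -/
noncomputable def res : D.O →+* D.κ := residue D.O

theorem res_surjective : Function.Surjective D.res := residue_surjective

theorem res_eq_zero_iff (z : D.O) : D.res z = 0 ↔ D.O.valuation (z : F) < 1 := by
  rw [res, residue_eq_zero_iff, ValuationSubring.valuation_lt_one_iff]

/-- The inclusion `A → O`. -/
noncomputable def incl : A →+* D.O :=
  RingHom.codRestrict ((algebraMap K F).comp A.subtype) D.O (fun a => D.algebraMap_mem a)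

@[simp] theorem coe_incl (a : A) : ((D.incl a : D.O) : F) = algebraMap K F a := rfl

/-- `x` as an element of `O`. -/
noncomputable def xO : D.O := ⟨D.x, D.x_mem⟩

/-- `f i` as an element of `O`. -/
noncomputable def fO (i : ι) : D.O := ⟨D.f i, D.f_mem i⟩

/-- The residue of `x`. -/
noncomputable def xb : D.κ := D.res D.xO

/-- The residue of `f i`. -/
noncomputable def fb (i : ι) : D.κ := D.res (D.fO i)

theorem res_incl_eq_zero_iff (a : A) : D.res (D.incl a) = 0 ↔ a ∈ maximalIdeal A := by
  classical
  rw [res_eq_zero_iff, coe_incl]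
  have h1 : algebraMap K F a = ev D.x D.f (C a • (Pi.single D.i₀ 1 : ι → A[X])) := by
    rw [D.evA_C_smul, D.evA_one, mul_one]
  rw [h1, D.valuation_evA_lt_one_iff]
  constructor
  · intro h
    have := h D.i₀ 0
    rwa [Pi.smul_apply, Pi.single_eq_same, smul_eq_mul, mul_one, coeff_C_zero] at this
  · intro h i n
    rw [Pi.smul_apply, smul_eq_mul, coeff_C_mul]
    exact Ideal.mul_mem_right _ _ h

section evO

/-- Evaluation inside `O`. -/
theorem coe_evO (u : ι → A[X]) :
    letI : Algebra A D.O := D.incl.toAlgebra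
    ((ev D.xO D.fO u : D.O) : F) = ev D.x D.f u := by
  letI : Algebra A D.O := D.incl.toAlgebra
  have h := map_ev (R := A) (L := D.O) (R' := A) (L' := F) D.xO D.fO (RingHom.id A)
    D.O.subtype (fun r => rfl) u
  simp only [Polynomial.map_id] at h
  exact h

end evO

section residue

variable {k : Type*} [Field k] (π : A →+* k)

theorem ker_eq_maximalIdeal (hπ : Function.Surjective π) : RingHom.ker π = maximalIdeal A :=
  eq_maximalIdeal (RingHom.ker_isMaximal_of_surjective π hπ)

theorem map_eq_zero_iff_of_surjective (hπ : Function.Surjective π) {p : A[X]} :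
    p.map π = 0 ↔ p.map (residue A) = 0 := by
  rw [map_residue_eq_zero_iff, Polynomial.ext_iff]
  simp only [coeff_map, coeff_zero]
  refine forall_congr' fun n => ?_
  rw [← RingHom.mem_ker, ker_eq_maximalIdeal π hπ]

theorem isPrim_iff_map_ne_zero (hπ : Function.Surjective π) {q : ι → A[X]} :
    IsPrim q ↔ (fun i => (q i).map π) ≠ 0 := by
  unfold IsPrim
  constructor
  · rintro ⟨i, hi⟩ h0
    exact hi ((map_eq_zero_iff_of_surjective π hπ).mp (congrFun h0 i))
  · intro h
    by_contra hcon
    push Not at hcon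
    exact h (funext fun i => (map_eq_zero_iff_of_surjective π hπ).mpr (hcon i))

theorem ker_le (hπ : Function.Surjective π) :
    RingHom.ker π ≤ RingHom.ker (D.res.comp D.incl) := by
  intro a ha
  rw [ker_eq_maximalIdeal π hπ] at ha
  rw [RingHom.mem_ker, RingHom.comp_apply]
  exact (D.res_incl_eq_zero_iff a).mpr ha

/-- The embedding `k → κ` induced by `A → O`. -/
noncomputable def kToκ (hπ : Function.Surjective π) : k →+* D.κ :=
  RingHom.liftOfSurjective π hπ ⟨D.res.comp D.incl, D.ker_le π hπ⟩

theorem kToκ_apply (hπ : Function.Surjective π) (a : A) :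
    D.kToκ π hπ (π a) = D.res (D.incl a) :=
  RingHom.liftOfSurjective_comp_apply π hπ ⟨D.res.comp D.incl, D.ker_le π hπ⟩ a

/-- The canonical `k`-algebra structure on the residue field `κ`. -/
@[reducible] noncomputable def resAlgebra (hπ : Function.Surjective π) : Algebra k D.κ :=
  (D.kToκ π hπ).toAlgebra

/-- Compatibility of a `k`-algebra structure on `κ` with `π` and the residue map. -/
def Compat [Algebra k D.κ] : Prop := ∀ a : A, algebraMap k D.κ (π a) = D.res (D.incl a)

theorem resAlgebra_compat (hπ : Function.Surjective π) :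
    letI := D.resAlgebra π hπ
    D.Compat π := by
  letI := D.resAlgebra π hπ
  intro a
  exact D.kToκ_apply π hπ a

variable [Algebra k D.κ] {π} (hc : D.Compat π)
include hc

/-- **Reduction of the evaluation.** -/
theorem res_ev (u : ι → A[X]) :
    D.res ⟨ev D.x D.f u, D.evA_mem u⟩ = ev D.xb D.fb (fun i => (u i).map π) := by
  letI : Algebra A D.O := D.incl.toAlgebra
  have h1 : (⟨ev D.x D.f u, D.evA_mem u⟩ : D.O) = ev D.xO D.fO u :=
    Subtype.ext (D.coe_evO u).symm
  rw [h1]
  exact map_ev (R := A) (L := D.O) (R' := k) (L' := D.κ) D.xO D.fO π D.res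
    (fun r => (hc r).symm) u

theorem fb_one : D.fb D.i₀ = 1 := by
  unfold fb
  have : D.fO D.i₀ = 1 := Subtype.ext D.model.f_one
  rw [this, map_one]

theorem res_aeval (p : A[X]) (h : aeval D.x p ∈ D.O) :
    D.res ⟨aeval D.x p, h⟩ = aeval D.xb (p.map π) := by
  classical
  have h1 := D.res_ev hc (Pi.single D.i₀ p)
  have h2 : ev D.x D.f (Pi.single D.i₀ p : ι → A[X]) = aeval D.x p := by
    rw [ev_single, D.model.f_one, mul_one]
  have h3 : (fun i => ((Pi.single D.i₀ p : ι → A[X]) i).map π) = Pi.single D.i₀ (p.map π) := by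
    funext i
    by_cases hi : i = D.i₀
    · subst hi; simp
    · simp [Pi.single_eq_of_ne hi]
  have hR : ev D.xb D.fb (fun i => ((Pi.single D.i₀ p : ι → A[X]) i).map π) =
      aeval D.xb (p.map π) := by
    rw [h3, ev_single, D.fb_one hc, mul_one]
  rw [← hR, ← h1]
  congr 1
  exact Subtype.ext h2.symm

theorem mulb (i j : ι) :
    D.fb i * D.fb j = ∑ l, aeval D.xb ((D.P i j l).map π) * D.fb l := by
  classical
  have h1 := D.res_ev hc (fun l => D.P i j l)
  have h2 : (⟨ev D.x D.f (fun l => D.P i j l), D.evA_mem _⟩ : D.O) = D.fO i * D.fO j := by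
    apply Subtype.ext
    show ev D.x D.f (fun l => D.P i j l) = D.f i * D.f j
    rw [D.mul i j]
    rfl
  rw [h2, map_mul] at h1
  exact h1

variable (hπ : Function.Surjective π)
include hπ

theorem indepb (pb : ι → k[X]) (h : ev D.xb D.fb pb = 0) : pb = 0 := by
  choose u hu using fun i => Polynomial.map_surjective π hπ (pb i)
  have h1 := D.res_ev hc u
  have hpb : (fun i => (u i).map π) = pb := funext hu
  rw [hpb, h, res_eq_zero_iff] at h1
  have h2 := (D.valuation_evA_lt_one_iff u).mp h1
  rw [← hpb]
  funext i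
  have : (u i).map (residue A) = 0 := map_residue_eq_zero_iff.mpr (h2 i)
  exact (map_eq_zero_iff_of_surjective π hπ).mpr this

theorem fracb (z : D.κ) :
    ∃ pb qb : ι → k[X], qb ≠ 0 ∧ z * ev D.xb D.fb qb = ev D.xb D.fb pb := by
  obtain ⟨z₀, rfl⟩ := D.res_surjective z
  obtain ⟨p, q, hq, h⟩ := z₀.2
  refine ⟨fun i => (p i).map π, fun i => (q i).map π, (isPrim_iff_map_ne_zero π hπ).mp hq, ?_⟩
  rw [← D.res_ev hc, ← D.res_ev hc, ← map_mul]
  congr 1
  exact Subtype.ext h

/-- **The reduced model**: `B0bar = ⊕ k[x̄] f̄_i` is a weighted model of `κ` over `k`. -/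
theorem modelb : IsModel D.W D.xb D.fb D.i₀ (fun i j l => (D.P i j l).map π) where
  m_zero := D.model.m_zero
  f_one := D.fb_one hc
  sc := D.sc.map D.W π
  mul := D.mulb hc
  indep := D.indepb hc hπ
  frac := D.fracb hc hπ

/-- `x̄` is transcendental over `k`. -/
theorem transcendental_xb : Transcendental k D.xb := (D.modelb hc hπ).transcendental

omit hc in
/-- **Good lifts**: every tuple over `k` lifts to a tuple over `A` with the same degrees. -/
theorem exists_lift (ub : ι → k[X]) :
    ∃ u : ι → A[X], (fun i => (u i).map π) = ub ∧ (∀ i, (u i).natDegree = (ub i).natDegree) ∧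
      (∀ i, u i = 0 ↔ ub i = 0) ∧ D.W.wdeg u = D.W.wdeg ub := by
  have hex : ∀ i, ∃ q : A[X], q.map π = ub i ∧ q.degree = (ub i).degree := by
    intro i
    have : ub i ∈ Polynomial.lifts π := by
      rw [Polynomial.mem_lifts]
      exact Polynomial.map_surjective π hπ (ub i)
    exact Polynomial.exists_degree_eq_of_mem_lifts this
  choose u hu using hex
  have hnat : ∀ i, (u i).natDegree = (ub i).natDegree := fun i =>
    natDegree_eq_natDegree (hu i).2
  have hzero : ∀ i, u i = 0 ↔ ub i = 0 := fun i => by
    rw [← degree_eq_bot, ← degree_eq_bot, (hu i).2]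
  refine ⟨u, funext fun i => (hu i).1, hnat, hzero, ?_⟩
  apply le_antisymm
  · rw [Weights.wdeg_le_iff]
    intro i hi
    rw [hnat i]
    exact D.W.le_wdeg (fun h => hi ((hzero i).mpr h))
  · rw [Weights.wdeg_le_iff]
    intro i hi
    rw [← hnat i]
    exact D.W.le_wdeg (fun h => hi ((hzero i).mp h))

/-- **The reduction setup of GATEWAY C0.** -/
noncomputable def redSetup
    (rank_one : ∀ x ∈ maximalIdeal A, ∀ c : A, c ≠ 0 → ∃ j : ℕ, c ∣ x ^ j)
    (exists_ne_zero : ∃ ϖ ∈ maximalIdeal A, ϖ ≠ 0) :
    Fermat.Agent.Gateway.C0.RedSetup A D.O k D.κ where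
  π := π
  π_surj := hπ
  res := D.res
  res_ker z := D.res_eq_zero_iff z
  algebraMap_mem := D.algebraMap_mem
  res_algebraMap a := (hc a).symm
  scal := D.scal
  rank_one := rank_one
  exists_ne_zero := exists_ne_zero

end residue

end AperyData

end Fermat.Agent.S27x.Spec.GaussNorm
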