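import Fermat.Agent.S27x.Spec.GaussNorm.Model

/-!
# P-S27 block D3: integrality in a weighted model (helper30)

`M : IsModel W x f i₀ P` (`B = ⊕ k[x] f_i ⊆ L`).
* `isIntegral_ev` : every element `ev x f u` of `B` is integral over `k[x]`;
* `isIntegral_inv_pow_mul_ev` : if `wdeg u ≤ N * d` then `x⁻¹ ^ N * ev x f u` is integral over
  `k[x⁻¹]` (the ring of these elements is the `k[1/x]`-module spanned by `x⁻¹ ^ ⌈m i / d⌉ * f i`).
-/

set_option autoImplicit false
set_option linter.unusedSectionVars false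

namespace Fermat.Agent.S27x.Spec.GaussNorm

open Polynomial

variable {ι : Type*} [Fintype ι]

namespace IsModel

variable {W : Weights ι} {k L : Type*} [Field k] [Field L] [Algebra k L]
  {x : L} {f : ι → L} {i₀ : ι} {P : ι → ι → ι → k[X]} (M : IsModel W x f i₀ P)

/-! ### Integrality over `k[x]` -/

/-- `ev x f u` lies in the `k[x]`-span of the `f i` -/
theorem ev_mem_span (u : ι → k[X]) :
    ev x f u ∈ Submodule.span (Algebra.adjoin k {x}) (Set.range f) := by
  unfold ev
  refine Submodule.sum_mem _ fun i _ => ?_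
  have h1 : aeval x (u i) ∈ Algebra.adjoin k {x} := by
    rw [Algebra.adjoin_singleton_eq_range_aeval]
    exact ⟨u i, rfl⟩
  have h2 : aeval x (u i) * f i = (⟨aeval x (u i), h1⟩ : Algebra.adjoin k {x}) • f i := rfl
  rw [h2]
  exact Submodule.smul_mem _ _ (Submodule.subset_span ⟨i, rfl⟩)

/-- every element of the `k[x]`-span of the `f i` is an `ev x f w` -/
theorem exists_ev_of_mem_span {n : L}
    (hn : n ∈ Submodule.span (Algebra.adjoin k {x}) (Set.range f)) :
    ∃ w : ι → k[X], n = ev x f w := by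
  classical
  induction hn using Submodule.span_induction with
  | mem y hy =>
    obtain ⟨i, rfl⟩ := hy
    exact ⟨Pi.single i 1, by rw [ev_single, map_one, one_mul]⟩
  | zero => exact ⟨0, (ev_zero x f).symm⟩
  | add y z _ _ hy hz =>
    obtain ⟨u, rfl⟩ := hy
    obtain ⟨w, rfl⟩ := hz
    exact ⟨u + w, (ev_add x f u w).symm⟩
  | smul r y _ hy =>
    obtain ⟨w, rfl⟩ := hy
    obtain ⟨r, hr⟩ := r
    have hr' := hr
    rw [Algebra.adjoin_singleton_eq_range_aeval] at hr'
    obtain ⟨p, rfl⟩ := hr'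
    refine ⟨p • w, ?_⟩
    rw [ev_smul]
    rfl

include M in
/-- **every element of `B = ⊕ k[x] f_i` is integral over `k[x]`.** -/
theorem isIntegral_ev (u : ι → k[X]) : IsIntegral (Algebra.adjoin k {x}) (ev x f u) := by
  classical
  refine isIntegral_of_smul_mem_submodule
    (Submodule.span (Algebra.adjoin k {x}) (Set.range f)) ?_
    (Submodule.fg_span (Set.finite_range f)) (ev x f u) ?_
  · intro h0
    have h1 : f i₀ ∈ Submodule.span (Algebra.adjoin k {x}) (Set.range f) :=
      Submodule.subset_span ⟨i₀, rfl⟩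
    rw [h0, Submodule.mem_bot, M.f_one] at h1
    exact one_ne_zero h1
  · intro n hn
    obtain ⟨w, rfl⟩ := exists_ev_of_mem_span hn
    rw [smul_eq_mul, M.ev_mul]
    exact ev_mem_span _

/-! ### Integrality over `k[x⁻¹]` -/

/-- `x⁻¹ ^ n * p(x)` is a polynomial in `x⁻¹` if `deg p ≤ n`. -/
theorem inv_pow_mul_aeval_mem (hx : x ≠ 0) (p : k[X]) {n : ℕ} (hp : p.natDegree ≤ n) :
    x⁻¹ ^ n * aeval x p ∈ Algebra.adjoin k {x⁻¹} := by
  rw [aeval_eq_sum_range, Finset.mul_sum]
  refine Subalgebra.sum_mem _ fun j hj => ?_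
  have hjn : j ≤ n := (Nat.lt_succ_iff.mp (Finset.mem_range.mp hj)).trans hp
  have h1 : x⁻¹ ^ n * p.coeff j • x ^ j = p.coeff j • x⁻¹ ^ (n - j) := by
    rw [mul_smul_comm]
    congr 1
    have h2 : x⁻¹ ^ n = x⁻¹ ^ (n - j) * x⁻¹ ^ j := by rw [← pow_add, Nat.sub_add_cancel hjn]
    rw [h2, mul_assoc, ← mul_pow, inv_mul_cancel₀ hx, one_pow, mul_one]
  rw [h1]
  exact Subalgebra.smul_mem _ (Subalgebra.pow_mem _ (Algebra.self_mem_adjoin_singleton k x⁻¹) _) _

/-- the exponent `⌈m i / d⌉` -/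
noncomputable def ceilW (W : Weights ι) (i : ι) : ℕ :=
  Nat.find (⟨W.m i, by
    calc W.m i = W.m i * 1 := (mul_one _).symm
      _ ≤ W.m i * W.d := Nat.mul_le_mul_left _ W.d_pos⟩ : ∃ c : ℕ, W.m i ≤ c * W.d)

theorem le_ceilW_mul (W : Weights ι) (i : ι) : W.m i ≤ ceilW W i * W.d :=
  Nat.find_spec (⟨W.m i, by
    calc W.m i = W.m i * 1 := (mul_one _).symm
      _ ≤ W.m i * W.d := Nat.mul_le_mul_left _ W.d_pos⟩ : ∃ c : ℕ, W.m i ≤ c * W.d)

theorem ceilW_le (W : Weights ι) (i : ι) {a : ℕ} (h : W.m i ≤ a * W.d) : ceilW W i ≤ a :=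
  Nat.find_min' _ h

/-- the generators `x⁻¹ ^ ⌈m i / d⌉ * f i` of the ring at infinity -/
noncomputable def genInf (W : Weights ι) (x : L) (f : ι → L) (i : ι) : L :=
  x⁻¹ ^ ceilW W i * f i

/-- the key containment: `x⁻¹ ^ N * ev x f u` lies in the `k[x⁻¹]`-span of the generators -/
theorem inv_pow_mul_ev_mem_span (hx : x ≠ 0) {u : ι → k[X]} {N : ℕ} (h : W.wdeg u ≤ N * W.d) :
    x⁻¹ ^ N * ev x f u ∈
      Submodule.span (Algebra.adjoin k {x⁻¹}) (Set.range (genInf W x f)) := by
  unfold ev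
  rw [Finset.mul_sum]
  refine Submodule.sum_mem _ fun i _ => ?_
  by_cases hui : u i = 0
  · rw [hui, map_zero, zero_mul, mul_zero]
    exact Submodule.zero_mem _
  · have h1 : W.d * (u i).natDegree + W.m i ≤ N * W.d := (W.le_wdeg hui).trans h
    have hdeg : (u i).natDegree ≤ N := by
      have : W.d * (u i).natDegree ≤ W.d * N := by
        rw [mul_comm W.d N]
        exact (Nat.le_add_right _ _).trans h1
      exact Nat.le_of_mul_le_mul_left this W.d_pos
    have hm : W.m i ≤ (N - (u i).natDegree) * W.d := by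
      rw [Nat.sub_mul]
      have : W.d * (u i).natDegree = (u i).natDegree * W.d := mul_comm _ _
      omega
    have hc : ceilW W i ≤ N - (u i).natDegree := ceilW_le W i hm
    have hsplit : x⁻¹ ^ N * (aeval x (u i) * f i) =
        (x⁻¹ ^ (N - ceilW W i) * aeval x (u i)) * genInf W x f i := by
      have h2 : x⁻¹ ^ N = x⁻¹ ^ (N - ceilW W i) * x⁻¹ ^ ceilW W i := by
        rw [← pow_add, Nat.sub_add_cancel (hc.trans (Nat.sub_le _ _))]
      rw [h2, genInf]
      ring
    have hmem : x⁻¹ ^ (N - ceilW W i) * aeval x (u i) ∈ Algebra.adjoin k {x⁻¹} :=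
      inv_pow_mul_aeval_mem hx (u i) (by omega)
    rw [hsplit]
    have h3 : (x⁻¹ ^ (N - ceilW W i) * aeval x (u i)) * genInf W x f i =
        (⟨_, hmem⟩ : Algebra.adjoin k {x⁻¹}) • genInf W x f i := rfl
    rw [h3]
    exact Submodule.smul_mem _ _ (Submodule.subset_span ⟨i, rfl⟩)

include M in
/-- the weighted degree of a product with a basis vector -/
theorem wdeg_star_single_le [DecidableEq ι] (u : ι → k[X]) (i : ι) :
    W.wdeg (star P u (Pi.single i 1)) ≤ W.wdeg u + W.m i := by
  refine (M.sc.wdeg_star_le W u (Pi.single i 1)).trans ?_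
  refine Nat.add_le_add_left ?_ _
  rw [W.wdeg_le_iff]
  intro j hj
  by_cases hji : j = i
  · subst hji
    rw [Pi.single_eq_same, natDegree_one, mul_zero, zero_add]
  · rw [Pi.single_eq_of_ne hji] at hj
    exact absurd rfl hj

include M in
/-- **the elements `x⁻¹ ^ N * ev x f u` with `wdeg u ≤ N * d` are integral over `k[x⁻¹]`.** -/
theorem isIntegral_inv_pow_mul_ev {u : ι → k[X]} {N : ℕ} (h : W.wdeg u ≤ N * W.d) :
    IsIntegral (Algebra.adjoin k {x⁻¹}) (x⁻¹ ^ N * ev x f u) := by
  classical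
  have hx : x ≠ 0 := fun h0 => by
    have := M.transcendental
    rw [h0] at this
    exact this (isAlgebraic_zero)
  refine isIntegral_of_smul_mem_submodule
    (Submodule.span (Algebra.adjoin k {x⁻¹}) (Set.range (genInf W x f))) ?_
    (Submodule.fg_span (Set.finite_range _)) (x⁻¹ ^ N * ev x f u) ?_
  · intro h0
    have h1 : genInf W x f i₀ ∈
        Submodule.span (Algebra.adjoin k {x⁻¹}) (Set.range (genInf W x f)) :=
      Submodule.subset_span ⟨i₀, rfl⟩
    rw [h0, Submodule.mem_bot, genInf, M.f_one, mul_one] at h1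
    exact pow_ne_zero _ (inv_ne_zero hx) h1
  · intro n hn
    induction hn using Submodule.span_induction with
    | mem y hy =>
      obtain ⟨i, rfl⟩ := hy
      have h1 : (x⁻¹ ^ N * ev x f u) • genInf W x f i =
          x⁻¹ ^ (N + ceilW W i) * ev x f (star P u (Pi.single i 1)) := by
        rw [smul_eq_mul, genInf, ← M.ev_mul, ev_single, map_one, one_mul, pow_add]
        ring
      rw [h1]
      refine inv_pow_mul_ev_mem_span hx ?_
      refine (M.wdeg_star_single_le u i).trans ?_
      rw [add_mul]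
      exact Nat.add_le_add h (le_ceilW_mul W i)
    | zero => rw [smul_zero]; exact Submodule.zero_mem _
    | add y z _ _ hy hz => rw [smul_add]; exact Submodule.add_mem _ hy hz
    | smul r y _ hy =>
      rw [smul_comm]
      exact Submodule.smul_mem _ _ hy

end IsModel

end Fermat.Agent.S27x.Spec.GaussNorm
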