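import Fermat.Agent.S27x.Spec.GaussNorm.ModelInfinity
import Fermat.Agent.S27x.Spec.GaussNorm.ModelIntegral
import Fermat.Agent.S24.AddVal

/-!
# P-S27 block D3: the place at infinity is the unique pole of `x`

For a weighted model `M : IsModel W x f i₀ P` with `card ι = d` (all residues mod `d` are weights):

* `M.addVal_nonneg_of_deg_le` : for every integer valued additive valuation `w` of `L` trivial on
  `k` (`S24.IsAddVal k w`) with `w x < 0`, every `z ≠ 0` of degree `≤ 0` has `0 ≤ w z`;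
* `M.pole_iff` : `v.ord x < 0 ↔ v = M.inftyPlace` for every place `v` of `L / k`;
* `M.ev_mem_of_ne_inftyPlace` : the ring `B = ⊕ k[x] f_i` is regular at all other places.

The proof: the ring `B_∞` of the elements `x⁻¹ ^ N * ev u` with `wdeg u ≤ N d` is integral over
`k[x⁻¹]` (helper30's `isIntegral_inv_pow_mul_ev`), hence contained in the valuation ring of `w`;
the elements of negative degree of `B_∞` have a power in `x⁻¹ B_∞`, so they have positive value;
`B_∞ = k + (negative degree)`, so the elements of degree `0` of `B_∞` are units at `w`; finally every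
element of degree `≤ 0` of `L` is a quotient `a / b` with `a, b ∈ B_∞` and `deg b = 0`.
-/

set_option autoImplicit false
set_option linter.unusedSectionVars false

namespace Fermat.Agent.S27x.Spec.GaussNorm

open Polynomial WithZero AlgebraicCurve

variable {ι : Type*} [Fintype ι]

/-- An element integral over a ring mapping into a valuation subring lies in it. -/
theorem mem_valuationSubring_of_isIntegral_map {R F : Type*} [CommRing R] [Field F] [Algebra R F]
    (V : ValuationSubring F) (h : ∀ r : R, algebraMap R F r ∈ V) {b : F} (hb : IsIntegral R b) :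
    b ∈ V := by
  obtain ⟨p, hp, hroot⟩ := hb
  let g : R →+* V := (algebraMap R F).codRestrict V h
  have hcomp : (algebraMap V F).comp g = algebraMap R F := by
    ext r; rfl
  have hint : IsIntegral V b :=
    ⟨p.map g, hp.map g, by rw [Polynomial.eval₂_map, hcomp]; exact hroot⟩
  obtain ⟨y, hy⟩ := IsIntegrallyClosed.isIntegral_iff.mp hint
  rw [← hy]
  exact y.2

/-- When `card ι = d` every residue class mod `d` is the class of a weight. -/
theorem Weights.exists_m_mod_eq (W : Weights ι) (hcard : Fintype.card ι = W.d) (r : ℕ) :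
    ∃ i, W.m i % W.d = r % W.d := by
  classical
  have : NeZero W.d := ⟨W.d_pos.ne'⟩
  let g : ι → Fin W.d := fun i => ⟨W.m i % W.d, Nat.mod_lt _ W.d_pos⟩
  have hg : Function.Injective g := by
    intro i j hij
    have h1 : W.m i % W.d = W.m j % W.d := congrArg Fin.val hij
    apply W.m_inj (W.m j / W.d) (W.m i / W.d) i j
    have e1 := Nat.div_add_mod (W.m i) W.d
    have e2 := Nat.div_add_mod (W.m j) W.d
    omega
  have hbij : Function.Bijective g := by
    rw [Fintype.bijective_iff_injective_and_card]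
    exact ⟨hg, by rw [hcard, Fintype.card_fin]⟩
  obtain ⟨i, hi⟩ := hbij.2 ⟨r % W.d, Nat.mod_lt _ W.d_pos⟩
  exact ⟨i, congrArg Fin.val hi⟩

/-- When `card ι = d` every natural number can be completed by a weight to a multiple of `d`. -/
theorem Weights.exists_add_m_eq_mul (W : Weights ι) (hcard : Fintype.card ι = W.d) (a : ℕ) :
    ∃ (i : ι) (N : ℕ), a + W.m i = N * W.d := by
  have hd := W.d_pos
  have hr : a % W.d < W.d := Nat.mod_lt _ hd
  have e1 := Nat.div_add_mod a W.d
  obtain ⟨i, hi⟩ := W.exists_m_mod_eq hcard (W.d - a % W.d)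
  have e2 := Nat.div_add_mod (W.m i) W.d
  rcases Nat.eq_zero_or_pos (a % W.d) with h0 | hpos
  · rw [h0, Nat.sub_zero, Nat.mod_self] at hi
    refine ⟨i, a / W.d + W.m i / W.d, ?_⟩
    rw [h0] at e1
    rw [hi] at e2
    rw [add_mul, mul_comm (a / W.d), mul_comm (W.m i / W.d)]
    omega
  · rw [Nat.mod_eq_of_lt (Nat.sub_lt hd hpos)] at hi
    refine ⟨i, a / W.d + W.m i / W.d + 1, ?_⟩
    rw [hi] at e2
    rw [add_mul, add_mul, one_mul, mul_comm (a / W.d), mul_comm (W.m i / W.d)]
    omega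

/-- The elements `x⁻¹ ^ N * ev x f u` of `B[1/x]`. -/
def InvX (k : Type*) {L : Type*} [Field k] [Field L] [Algebra k L] (x : L) (f : ι → L) (z : L) :
    Prop :=
  ∃ (N : ℕ) (u : ι → k[X]), z = x⁻¹ ^ N * ev x f u

namespace IsModel

variable {W : Weights ι} {k L : Type*} [Field k] [Field L] [Algebra k L]
  {x : L} {f : ι → L} {i₀ : ι} {P : ι → ι → ι → k[X]} (M : IsModel W x f i₀ P)
include M

/-! ### Complements on the degree -/

theorem deg_x : M.deg x = W.d := by
  have h := M.inftyVal_x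
  rw [M.inftyVal_apply M.x_ne_zero] at h
  exact exp_injective h

theorem deg_algebraMap {c : k} (hc : c ≠ 0) : M.deg (algebraMap k L c) = 0 := by
  have h := M.inftyVal_algebraMap c hc
  have hc' : algebraMap k L c ≠ 0 := by simpa using hc
  rw [M.inftyVal_apply hc', ← exp_zero] at h
  exact exp_injective h

theorem deg_inv {z : L} (hz : z ≠ 0) : M.deg z⁻¹ = -M.deg z := by
  have h := M.deg_mul hz (inv_ne_zero hz)
  rw [mul_inv_cancel₀ hz, M.deg_one] at h
  omega

theorem deg_pow {z : L} (hz : z ≠ 0) (n : ℕ) : M.deg (z ^ n) = n * M.deg z := by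
  induction n with
  | zero => simp [M.deg_one]
  | succ n ih =>
    rw [pow_succ, M.deg_mul (pow_ne_zero _ hz) hz, ih]
    push_cast
    ring

theorem deg_inv_pow_mul_ev {u : ι → k[X]} (hu : u ≠ 0) (N : ℕ) :
    M.deg (x⁻¹ ^ N * ev x f u) = (W.wdeg u : ℤ) - N * W.d := by
  classical
  have hxi : x⁻¹ ≠ 0 := inv_ne_zero M.x_ne_zero
  rw [M.deg_mul (pow_ne_zero _ hxi) (M.ev_ne_zero hu), M.deg_pow hxi, M.deg_inv M.x_ne_zero,
    M.deg_x, M.deg_ev hu]
  ring

theorem deg_le_zero_of_mem_inftyRing {z : L} (hz : z ≠ 0) (h : z ∈ M.inftyRing) :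
    M.deg z ≤ 0 := by
  have h1 : M.inftyVal z ≤ 1 := h
  rwa [M.inftyVal_apply hz, ← exp_zero, exp_le_exp] at h1

/-! ### The ring `B[1/x]` -/

omit M in
theorem invX_ev (u : ι → k[X]) : InvX k x f (ev x f u) := ⟨0, u, by rw [pow_zero, one_mul]⟩

theorem invX_mul {z₁ z₂ : L} (h₁ : InvX k x f z₁) (h₂ : InvX k x f z₂) :
    InvX k x f (z₁ * z₂) := by
  obtain ⟨N₁, u₁, rfl⟩ := h₁
  obtain ⟨N₂, u₂, rfl⟩ := h₂
  refine ⟨N₁ + N₂, star P u₁ u₂, ?_⟩
  rw [← M.ev_mul, pow_add]
  ring

theorem invX_one : InvX k x f (1 : L) := by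
  classical
  exact ⟨0, Pi.single i₀ 1, by rw [M.ev_one, pow_zero, one_mul]⟩

theorem invX_pow {z : L} (h : InvX k x f z) (n : ℕ) : InvX k x f (z ^ n) := by
  induction n with
  | zero => rw [pow_zero]; exact M.invX_one
  | succ n ih => rw [pow_succ]; exact M.invX_mul ih h

theorem invX_x : InvX k x f x := by
  classical
  exact ⟨0, Pi.single i₀ X, by rw [M.ev_poly, aeval_X, pow_zero, one_mul]⟩

theorem invX_x_inv : InvX k x f x⁻¹ := by
  classical
  exact ⟨1, Pi.single i₀ 1, by rw [M.ev_one, pow_one, mul_one]⟩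

/-! ### Additive valuations with a pole at `x` -/

variable {w : L → ℤ}

/-- `B_∞ ⊆ O_w`. -/
theorem addVal_nonneg_of_wdeg_le (hw : Fermat.Agent.S24.IsAddVal k w) (hx : w x < 0)
    {u : ι → k[X]} {N : ℕ} (h : W.wdeg u ≤ N * W.d) (hne : x⁻¹ ^ N * ev x f u ≠ 0) :
    0 ≤ w (x⁻¹ ^ N * ev x f u) := by
  have hint := M.isIntegral_inv_pow_mul_ev h
  have hmem : x⁻¹ ^ N * ev x f u ∈ hw.valSubring := by
    refine mem_valuationSubring_of_isIntegral_map hw.valSubring (fun r => ?_) hint
    obtain ⟨r, hr⟩ := r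
    show r ∈ hw.valSubring
    induction hr using Algebra.adjoin_induction with
    | mem y hy =>
      rw [Set.mem_singleton_iff] at hy
      rw [hy, hw.mem_valSubring_of_ne_zero (inv_ne_zero M.x_ne_zero), hw.map_inv M.x_ne_zero]
      omega
    | algebraMap c => exact hw.algebraMap_mem_valSubring c
    | add y z _ _ hy hz => exact add_mem hy hz
    | mul y z _ _ hy hz => exact mul_mem hy hz
  exact (hw.mem_valSubring_of_ne_zero hne).mp hmem

theorem addVal_nonneg_of_invX (hw : Fermat.Agent.S24.IsAddVal k w) (hx : w x < 0) {z : L}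
    (hB : InvX k x f z) (hz : z ≠ 0) (hdeg : M.deg z ≤ 0) : 0 ≤ w z := by
  obtain ⟨N, u, rfl⟩ := hB
  have hu : u ≠ 0 := by
    rintro rfl
    rw [ev_zero, mul_zero] at hz
    exact hz rfl
  rw [M.deg_inv_pow_mul_ev hu] at hdeg
  refine M.addVal_nonneg_of_wdeg_le hw hx ?_ hz
  have h1 : (W.wdeg u : ℤ) ≤ ((N * W.d : ℕ) : ℤ) := by
    push_cast
    linarith
  exact_mod_cast h1

/-- The elements of negative degree of `B[1/x]` have positive value. -/
theorem addVal_pos_of_invX (hw : Fermat.Agent.S24.IsAddVal k w) (hx : w x < 0) {z : L}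
    (hB : InvX k x f z) (hz : z ≠ 0) (hdeg : M.deg z < 0) : 0 < w z := by
  have hd : (0 : ℤ) < W.d := by exact_mod_cast W.d_pos
  have hy : z ^ W.d * x ≠ 0 := mul_ne_zero (pow_ne_zero _ hz) M.x_ne_zero
  have hBy : InvX k x f (z ^ W.d * x) := M.invX_mul (M.invX_pow hB _) M.invX_x
  have hdy : M.deg (z ^ W.d * x) ≤ 0 := by
    rw [M.deg_mul (pow_ne_zero _ hz) M.x_ne_zero, M.deg_pow hz, M.deg_x]
    nlinarith
  have h1 := M.addVal_nonneg_of_invX hw hx hBy hy hdy
  rw [hw.map_mul _ _ (pow_ne_zero _ hz) M.x_ne_zero, hw.map_pow hz] at h1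
  by_contra hneg
  push Not at hneg
  nlinarith

/-- `B_∞ = k + (negative degree)`. -/
theorem exists_const_sub_of_deg_eq_zero {z : L} (hB : InvX k x f z) (hz : z ≠ 0)
    (hdeg : M.deg z = 0) :
    ∃ c : k, c ≠ 0 ∧ InvX k x f (z - algebraMap k L c) ∧
      (z - algebraMap k L c = 0 ∨ M.deg (z - algebraMap k L c) < 0) := by
  classical
  obtain ⟨N, u, rfl⟩ := hB
  have hu : u ≠ 0 := by
    rintro rfl
    rw [ev_zero, mul_zero] at hz
    exact hz rfl
  rw [M.deg_inv_pow_mul_ev hu] at hdeg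
  have hwd : W.wdeg u = N * W.d := by
    have h1 : (W.wdeg u : ℤ) = ((N * W.d : ℕ) : ℤ) := by
      push_cast
      linarith
    exact_mod_cast h1
  obtain ⟨i, hi, hiw⟩ := W.exists_wdeg_eq hu
  have hi' : W.d * (u i).natDegree + W.m i = W.d * N + W.m i₀ := by
    rw [hiw, hwd, M.m_zero, add_zero, mul_comm]
  obtain ⟨hN, hii⟩ := W.weight_inj hi'
  rw [hii] at hi hiw hN
  have hc : (u i₀).leadingCoeff ≠ 0 := leadingCoeff_ne_zero.mpr hi
  obtain ⟨u', hu'⟩ : ∃ u' : ι → k[X],
      u' = u - Pi.single i₀ (C (u i₀).leadingCoeff * X ^ N) := ⟨_, rfl⟩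
  have hev : x⁻¹ ^ N * ev x f u - algebraMap k L (u i₀).leadingCoeff = x⁻¹ ^ N * ev x f u' := by
    rw [hu', ev_sub, M.ev_poly, mul_sub]
    congr 1
    rw [map_mul, aeval_C, map_pow, aeval_X, inv_pow, mul_comm, mul_assoc,
      mul_inv_cancel₀ (pow_ne_zero _ M.x_ne_zero), mul_one]
  refine ⟨(u i₀).leadingCoeff, hc, ⟨N, u', hev⟩, ?_⟩
  by_cases hu0 : u' = 0
  · left
    rw [hev, hu0, ev_zero, mul_zero]
  · right
    rw [hev, M.deg_inv_pow_mul_ev hu0]
    have hlt : W.wdeg u' < N * W.d := by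
      obtain ⟨j, hj, hjw⟩ := W.exists_wdeg_eq hu0
      rw [← hjw]
      by_cases hji : j = i₀
      · rw [hji] at hj ⊢
        have e : u' i₀ = (u i₀).eraseLead := by
          rw [hu', Pi.sub_apply, Pi.single_eq_same, ← hN]
          exact self_sub_C_mul_X_pow (u i₀)
        rw [e] at hj ⊢
        rcases eraseLead_natDegree_lt_or_eraseLead_eq_zero (u i₀) with h | h
        · rw [hN] at h
          rw [M.m_zero, add_zero, mul_comm]
          exact Nat.mul_lt_mul_of_pos_right h W.d_pos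
        · exact absurd h hj
      · have e : u' j = u j := by
          rw [hu', Pi.sub_apply, Pi.single_eq_of_ne hji, sub_zero]
        rw [e] at hj ⊢
        have h := W.lt_wdeg_of_ne hiw hj hji
        rwa [hwd] at h
    have h1 : (W.wdeg u' : ℤ) < ((N * W.d : ℕ) : ℤ) := by exact_mod_cast hlt
    push_cast at h1
    linarith

/-- The elements of degree `0` of `B[1/x]` have value `0`. -/
theorem addVal_eq_zero_of_invX (hw : Fermat.Agent.S24.IsAddVal k w) (hx : w x < 0) {z : L}
    (hB : InvX k x f z) (hz : z ≠ 0) (hdeg : M.deg z = 0) : w z = 0 := by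
  obtain ⟨c, hc, hB', h⟩ := M.exists_const_sub_of_deg_eq_zero hB hz hdeg
  have hc' : algebraMap k L c ≠ 0 := by simpa using hc
  by_cases h0 : z - algebraMap k L c = 0
  · rw [sub_eq_zero.mp h0, hw.map_const c hc]
  · have hneg : M.deg (z - algebraMap k L c) < 0 := h.resolve_left h0
    have h1 := M.addVal_pos_of_invX hw hx hB' h0 hneg
    have h2 := hw.map_add_of_lt hc' h0 (by rw [hw.map_const c hc]; exact h1)
    rw [add_sub_cancel] at h2
    rw [h2, hw.map_const c hc]

/-- **Main comparison**: an additive valuation with a pole at `x` is nonnegative on the valuation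
ring at infinity. -/
theorem addVal_nonneg_of_deg_le (hcard : Fintype.card ι = W.d)
    (hw : Fermat.Agent.S24.IsAddVal k w) (hx : w x < 0) {z : L} (hz : z ≠ 0)
    (hdeg : M.deg z ≤ 0) : 0 ≤ w z := by
  classical
  obtain ⟨p, q, hq, h⟩ := M.frac z
  have hp := M.num_ne_zero hz hq h
  obtain ⟨i, N, hN⟩ := W.exists_add_m_eq_mul hcard (W.wdeg q)
  have hs : (Pi.single i (1 : k[X]) : ι → k[X]) ≠ 0 := single_ne_zero' i one_ne_zero
  obtain ⟨g, hg⟩ : ∃ g : L, g = ev x f (Pi.single i (1 : k[X])) := ⟨_, rfl⟩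
  have hg0 : g ≠ 0 := by rw [hg]; exact M.ev_ne_zero hs
  have hBg : InvX k x f g := by rw [hg]; exact invX_ev _
  have hdg : M.deg g = W.m i := by
    rw [hg, M.deg_ev hs, W.wdeg_single i (one_ne_zero : (1 : k[X]) ≠ 0), natDegree_one,
      mul_zero, zero_add]
  have hxi : x⁻¹ ≠ 0 := inv_ne_zero M.x_ne_zero
  have hep := M.ev_ne_zero hp
  have heq := M.ev_ne_zero hq
  have hab : z * (x⁻¹ ^ N * (ev x f q * g)) = x⁻¹ ^ N * (ev x f p * g) := by
    rw [← h]
    ring
  have hBb : InvX k x f (x⁻¹ ^ N * (ev x f q * g)) :=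
    M.invX_mul (M.invX_pow M.invX_x_inv N) (M.invX_mul (invX_ev q) hBg)
  have hBa : InvX k x f (x⁻¹ ^ N * (ev x f p * g)) :=
    M.invX_mul (M.invX_pow M.invX_x_inv N) (M.invX_mul (invX_ev p) hBg)
  have hb0 : x⁻¹ ^ N * (ev x f q * g) ≠ 0 :=
    mul_ne_zero (pow_ne_zero _ hxi) (mul_ne_zero heq hg0)
  have ha0 : x⁻¹ ^ N * (ev x f p * g) ≠ 0 :=
    mul_ne_zero (pow_ne_zero _ hxi) (mul_ne_zero hep hg0)
  have hN' : (W.wdeg q : ℤ) + W.m i = N * W.d := by exact_mod_cast hN
  have hdb : M.deg (x⁻¹ ^ N * (ev x f q * g)) = 0 := by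
    rw [M.deg_mul (pow_ne_zero _ hxi) (mul_ne_zero heq hg0), M.deg_pow hxi,
      M.deg_inv M.x_ne_zero, M.deg_x, M.deg_mul heq hg0, M.deg_ev hq, hdg]
    linarith
  have hda : M.deg (x⁻¹ ^ N * (ev x f p * g)) ≤ 0 := by
    rw [M.deg_mul (pow_ne_zero _ hxi) (mul_ne_zero hep hg0), M.deg_pow hxi,
      M.deg_inv M.x_ne_zero, M.deg_x, M.deg_mul hep hg0, M.deg_ev hp, hdg]
    rw [M.deg_eq hz hq h] at hdeg
    linarith
  have h1 := M.addVal_eq_zero_of_invX hw hx hBb hb0 hdb
  have h2 := M.addVal_nonneg_of_invX hw hx hBa ha0 hda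
  rw [← hab, hw.map_mul _ _ hz hb0, h1, add_zero] at h2
  exact h2

/-! ### The unique pole of `x` -/

theorem inftyRing_le_of_ord_x_neg (hcard : Fintype.card ι = W.d) (v : Place k L)
    (hv : v.ord x < 0) : M.inftyRing ≤ v.toValuationSubring := by
  intro z hz
  by_cases hz0 : z = 0
  · rw [hz0]
    exact zero_mem _
  rw [Fermat.Agent.S24.place_mem_iff_ord_nonneg v hz0]
  exact M.addVal_nonneg_of_deg_le hcard (Fermat.Agent.S24.isAddVal_ord v) hv hz0
    (M.deg_le_zero_of_mem_inftyRing hz0 hz)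

theorem eq_inftyPlace_of_ord_x_neg (hcard : Fintype.card ι = W.d) (v : Place k L)
    (hv : v.ord x < 0) : v = M.inftyPlace := by
  apply Place.ext
  have hle : M.inftyPlace.toValuationSubring ≤ v.toValuationSubring :=
    M.inftyRing_le_of_ord_x_neg hcard v hv
  have := M.inftyPlace.isPrincipalIdealRing'
  exact (ValuationSubring.eq_of_le_of_ne_top _ hle v.ne_top').symm

/-- **The place at infinity is the unique pole of `x`.** -/
theorem pole_iff (hcard : Fintype.card ι = W.d) (v : Place k L) :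
    v.ord x < 0 ↔ v = M.inftyPlace := by
  constructor
  · exact M.eq_inftyPlace_of_ord_x_neg hcard v
  · intro h
    rw [h, M.ord_inftyPlace_x hcard]
    have := W.d_pos
    omega

theorem ord_x_nonneg_of_ne (hcard : Fintype.card ι = W.d) {v : Place k L}
    (hv : v ≠ M.inftyPlace) : 0 ≤ v.ord x := by
  by_contra h
  push Not at h
  exact hv (M.eq_inftyPlace_of_ord_x_neg hcard v h)

/-- `B = ⊕ k[x] f_i` is regular at every place different from the place at infinity. -/
theorem ev_mem_of_ne_inftyPlace (hcard : Fintype.card ι = W.d) {v : Place k L}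
    (hv : v ≠ M.inftyPlace) (u : ι → k[X]) : ev x f u ∈ v.toValuationSubring := by
  have hxv : x ∈ v.toValuationSubring :=
    (Fermat.Agent.S24.place_mem_iff_ord_nonneg v M.x_ne_zero).mpr (M.ord_x_nonneg_of_ne hcard hv)
  refine mem_valuationSubring_of_isIntegral_map v.toValuationSubring (fun r => ?_)
    (M.isIntegral_ev u)
  obtain ⟨r, hr⟩ := r
  show r ∈ v.toValuationSubring
  induction hr using Algebra.adjoin_induction with
  | mem y hy =>
    rw [Set.mem_singleton_iff] at hy
    rw [hy]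
    exact hxv
  | algebraMap c => exact v.algebraMap_mem' c
  | add y z _ _ hy hz => exact add_mem hy hz
  | mul y z _ _ hy hz => exact mul_mem hy hz

theorem ord_ev_nonneg_of_ne (hcard : Fintype.card ι = W.d) {v : Place k L}
    (hv : v ≠ M.inftyPlace) {u : ι → k[X]} (hu : u ≠ 0) : 0 ≤ v.ord (ev x f u) :=
  (Fermat.Agent.S24.place_mem_iff_ord_nonneg v (M.ev_ne_zero hu)).mp
    (M.ev_mem_of_ne_inftyPlace hcard hv u)

end IsModel

end Fermat.Agent.S27x.Spec.GaussNorm
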