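import Fermat.Agent.S27x.Spec.GaussNorm.Model

/-!
# P-S27 block D3/D4: trace form and discriminant of a weighted model (formula based)

For structure constants `P : ι → ι → ι → R[X]` (`f i * f j = ∑ l, P i j l (x) * f l`) we define,
purely by formulas (hence compatible with every base change of the coefficient ring `R`):

* `trVec P l = ∑ j, P l j j`: the trace of the multiplication by `f l` in the basis `f`;
* `trMat P i j = ∑ l, P i j l * trVec P l`: the trace of `f i * f j`;
* `discr P = det (trMat P)`.

For a model `M : IsModel W x f i₀ P` over a field `k` with `[L : k(x)] = card ι` (see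
`ModelDegree.lean`), `f` is a `k(x)`-basis of `L`, these formulas compute the traces for
`L / k(x)`, and `discr P ≠ 0` as soon as `L / k(x)` is separable.
-/

set_option autoImplicit false
set_option linter.unusedSectionVars false
set_option linter.style.haveILetI false

noncomputable section

namespace Fermat.Agent.S27x.Spec.GaussNorm

open Polynomial IntermediateField Module

variable {ι : Type*} [Fintype ι]

section Formula

variable {R S : Type*} [CommRing R] [CommRing S]

/-- The trace of the multiplication by `f l`, computed from the structure constants. -/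
def trVec (P : ι → ι → ι → R[X]) (l : ι) : R[X] := ∑ j, P l j j

/-- The trace of `ev u`, computed from the structure constants. -/
def trEv (P : ι → ι → ι → R[X]) (u : ι → R[X]) : R[X] := ∑ l, u l * trVec P l

/-- The matrix of the trace form in the basis `f`, computed from the structure constants. -/
def trMat (P : ι → ι → ι → R[X]) : Matrix ι ι R[X] :=
  Matrix.of fun i j => ∑ l, P i j l * trVec P l

theorem trMat_apply (P : ι → ι → ι → R[X]) (i j : ι) :
    trMat P i j = ∑ l, P i j l * trVec P l := rfl

/-- The discriminant of the basis `f`, computed from the structure constants. -/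
def discr [DecidableEq ι] (P : ι → ι → ι → R[X]) : R[X] := (trMat P).det

theorem trVec_map (g : R →+* S) (P : ι → ι → ι → R[X]) (l : ι) :
    trVec (fun i j l => (P i j l).map g) l = (trVec P l).map g := by
  simp [trVec, Polynomial.map_sum]

theorem trEv_map (g : R →+* S) (P : ι → ι → ι → R[X]) (u : ι → R[X]) :
    trEv (fun i j l => (P i j l).map g) (fun i => (u i).map g) = (trEv P u).map g := by
  simp [trEv, Polynomial.map_sum, trVec_map]

theorem trMat_map (g : R →+* S) (P : ι → ι → ι → R[X]) :
    trMat (fun i j l => (P i j l).map g) = (trMat P).map (Polynomial.mapRingHom g) := by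
  ext i j : 1
  rw [Matrix.map_apply, trMat_apply, trMat_apply, map_sum]
  refine Finset.sum_congr rfl fun l _ => ?_
  rw [map_mul, trVec_map]
  rfl

theorem discr_map [DecidableEq ι] (g : R →+* S) (P : ι → ι → ι → R[X]) :
    discr (fun i j l => (P i j l).map g) = (discr P).map g := by
  rw [discr, discr, trMat_map]
  exact (RingHom.map_det (Polynomial.mapRingHom g) (trMat P)).symm

end Formula

namespace IsModel

open scoped IntermediateField.algebraAdjoinAdjoin

variable {W : Weights ι} {k L : Type*} [Field k] [Field L] [Algebra k L]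
  {x : L} {f : ι → L} {i₀ : ι} {P : ι → ι → ι → k[X]} (M : IsModel W x f i₀ P)

omit [Fintype ι] in
/-- Polynomials in the generator of `k(x)` map to polynomials in `x`. -/
theorem algebraMap_aeval_gen (p : k[X]) :
    algebraMap k⟮x⟯ L (aeval (AdjoinSimple.gen k x) p) = aeval x p := by
  rw [← aeval_algebraMap_apply, AdjoinSimple.algebraMap_gen]

theorem ev_eq_sum_smul (u : ι → k[X]) :
    ev x f u = ∑ i, aeval (AdjoinSimple.gen k x) (u i) • f i := by
  unfold ev
  refine Finset.sum_congr rfl fun i _ => ?_
  rw [Algebra.smul_def, algebraMap_aeval_gen]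

include M

/-- The family `f` is linearly independent over `k[x]`. -/
theorem linearIndependent_adjoin : LinearIndependent (Algebra.adjoin k {x}) f := by
  rw [Fintype.linearIndependent_iff]
  intro g hg
  have hex : ∀ i, ∃ p : k[X], aeval x p = (g i : L) := by
    intro i
    have h1 : (g i : L) ∈ (aeval x : k[X] →ₐ[k] L).range := by
      rw [← Algebra.adjoin_singleton_eq_range_aeval]
      exact (g i).2
    exact h1
  choose p hp using hex
  have h0 : ev x f p = 0 := by
    rw [← hg]
    unfold ev
    refine Finset.sum_congr rfl fun i _ => ?_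
    rw [hp i]
    rfl
  have hp0 := M.indep p h0
  intro i
  apply Subtype.ext
  rw [← hp i, hp0]
  simp

/-- The family `f` is linearly independent over `k(x)`. -/
theorem linearIndependent : LinearIndependent k⟮x⟯ f :=
  (LinearIndependent.iff_fractionRing (Algebra.adjoin k {x}) k⟮x⟯).mp M.linearIndependent_adjoin

variable [FiniteDimensional k⟮x⟯ L] (hrank : finrank k⟮x⟯ L = Fintype.card ι)
include hrank

/-- `f` as a `k(x)`-basis of `L`. -/
def basis : Basis ι k⟮x⟯ L :=
  haveI : Nonempty ι := ⟨i₀⟩
  basisOfLinearIndependentOfCardEqFinrank M.linearIndependent hrank.symm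

@[simp]
theorem coe_basis : ⇑(M.basis hrank) = f := by
  unfold basis
  haveI : Nonempty ι := ⟨i₀⟩
  exact coe_basisOfLinearIndependentOfCardEqFinrank _ _

theorem basis_apply (i : ι) : M.basis hrank i = f i := by rw [coe_basis]

theorem repr_ev (u : ι → k[X]) (i : ι) :
    (M.basis hrank).repr (ev x f u) i = aeval (AdjoinSimple.gen k x) (u i) := by
  rw [ev_eq_sum_smul]
  have : ∑ i, aeval (AdjoinSimple.gen k x) (u i) • f i =
      ∑ i, aeval (AdjoinSimple.gen k x) (u i) • (M.basis hrank) i := by
    simp_rw [basis_apply]
  rw [this, Basis.repr_sum_self]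

/-- The trace of `f l` is given by `trVec`. -/
theorem trace_f (l : ι) :
    Algebra.trace k⟮x⟯ L (f l) = aeval (AdjoinSimple.gen k x) (trVec P l) := by
  classical
  rw [Algebra.trace_eq_matrix_trace (M.basis hrank), Matrix.trace, trVec, map_sum]
  refine Finset.sum_congr rfl fun j _ => ?_
  rw [Matrix.diag_apply, Algebra.leftMulMatrix_eq_repr_mul, basis_apply, M.mul]
  have : ∑ m, aeval x (P l j m) * f m = ev x f (P l j) := rfl
  rw [this, repr_ev]

/-- The trace of `ev u` is given by `trEv`. -/
theorem trace_ev (u : ι → k[X]) :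
    Algebra.trace k⟮x⟯ L (ev x f u) = aeval (AdjoinSimple.gen k x) (trEv P u) := by
  rw [ev_eq_sum_smul, map_sum, trEv, map_sum]
  refine Finset.sum_congr rfl fun l _ => ?_
  rw [map_smul, M.trace_f hrank, smul_eq_mul, map_mul]

/-- The trace of `f i * f j` is given by `trMat`. -/
theorem trace_mul (i j : ι) :
    Algebra.trace k⟮x⟯ L (f i * f j) = aeval (AdjoinSimple.gen k x) (trMat P i j) := by
  rw [M.mul]
  have : ∑ m, aeval x (P i j m) * f m = ev x f (P i j) := rfl
  rw [this, M.trace_ev hrank]
  rfl

/-- The trace matrix of the basis `f` is the image of `trMat P`. -/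
theorem traceMatrix_basis [DecidableEq ι] :
    Algebra.traceMatrix k⟮x⟯ (M.basis hrank) =
      (trMat P).map (aeval (AdjoinSimple.gen k x) : k[X] →ₐ[k] k⟮x⟯) := by
  ext i j
  rw [Algebra.traceMatrix_apply, Algebra.traceForm_apply, basis_apply, basis_apply,
    M.trace_mul hrank, Matrix.map_apply]

theorem discr_basis [DecidableEq ι] :
    Algebra.discr k⟮x⟯ (M.basis hrank) = aeval (AdjoinSimple.gen k x) (discr P) := by
  rw [Algebra.discr_def, M.traceMatrix_basis hrank, discr]
  exact (RingHom.map_det (aeval (AdjoinSimple.gen k x) : k[X] →ₐ[k] k⟮x⟯).toRingHom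
    (trMat P)).symm

/-- **The discriminant of a separable model does not vanish.** -/
theorem discr_ne_zero [DecidableEq ι] [Algebra.IsSeparable k⟮x⟯ L] : discr P ≠ 0 := by
  intro h
  have h1 := Algebra.discr_not_zero_of_basis k⟮x⟯ (M.basis hrank)
  rw [M.discr_basis hrank, h, map_zero] at h1
  exact h1 rfl

/-- In characteristic zero the discriminant does not vanish. -/
theorem discr_ne_zero_of_charZero [DecidableEq ι] [CharZero k] : discr P ≠ 0 := by
  haveI : CharZero k⟮x⟯ := charZero_of_injective_algebraMap (algebraMap k k⟮x⟯).injective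
  haveI : Algebra.IsSeparable k⟮x⟯ L := Algebra.IsAlgebraic.isSeparable_of_perfectField
  exact M.discr_ne_zero hrank


/-! ### The dual inclusion `δ • (integral closure) ⊆ ⊕ k[x] f_i` -/

omit hrank [FiniteDimensional k⟮x⟯ L] in
/-- `k[x]` is a principal ideal domain, hence integrally closed. -/
theorem isIntegrallyClosed_adjoin : IsIntegrallyClosed (Algebra.adjoin k {x}) := by
  have hinj : Function.Injective (aeval x : k[X] →ₐ[k] L) :=
    transcendental_iff_injective.mp M.transcendental
  have hrange : (aeval x : k[X] →ₐ[k] L).range = Algebra.adjoin k {x} :=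
    (Algebra.adjoin_singleton_eq_range_aeval k x).symm
  let e : k[X] ≃ₐ[k] Algebra.adjoin k {x} :=
    (AlgEquiv.ofInjective _ hinj).trans (Subalgebra.equivOfEq _ _ hrange)
  haveI : IsPrincipalIdealRing (Algebra.adjoin k {x}) :=
    IsPrincipalIdealRing.of_surjective e.toRingEquiv.toRingHom e.surjective
  infer_instance

omit hrank [FiniteDimensional k⟮x⟯ L] in
/-- An element of `k(x)` integral over `k[x]` is a polynomial in `x`. -/
theorem exists_aeval_gen_eq_of_isIntegral {c : k⟮x⟯} (hc : IsIntegral (Algebra.adjoin k {x}) c) :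
    ∃ t : k[X], aeval (AdjoinSimple.gen k x) t = c := by
  haveI := M.isIntegrallyClosed_adjoin
  obtain ⟨y, hy⟩ := (IsIntegrallyClosed.isIntegral_iff (R := Algebra.adjoin k {x})
    (K := k⟮x⟯)).mp hc
  have h1 : (y : L) ∈ (aeval x : k[X] →ₐ[k] L).range := by
    rw [← Algebra.adjoin_singleton_eq_range_aeval]
    exact y.2
  obtain ⟨t, ht⟩ := h1
  refine ⟨t, ?_⟩
  apply (algebraMap k⟮x⟯ L).injective
  rw [algebraMap_aeval_gen, ← hy]
  exact ht

/-- **Dual inclusion**: if the `f i` are integral over `k[x]`, then `δ(x) b ∈ ⊕ k[x] f_i` for every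
`b` integral over `k[x]`, where `δ = discr P`. -/
theorem exists_ev_eq_discr_mul_of_isIntegral [DecidableEq ι]
    (hf : ∀ i, IsIntegral (Algebra.adjoin k {x}) (f i)) {b : L}
    (hb : IsIntegral (Algebra.adjoin k {x}) b) :
    ∃ u : ι → k[X], aeval x (discr P) * b = ev x f u := by
  -- the traces of `b * f j` are polynomials in `x`
  have htr : ∀ j, ∃ t : k[X], aeval (AdjoinSimple.gen k x) t = Algebra.trace k⟮x⟯ L (b * f j) :=
    fun j => M.exists_aeval_gen_eq_of_isIntegral
      (Algebra.isIntegral_trace (R := Algebra.adjoin k {x}) (hb.mul (hf j)))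
  choose t ht using htr
  set B := M.basis hrank with hB
  set c : ι → k⟮x⟯ := fun i => B.repr b i with hc
  set g : k[X] →+* k⟮x⟯ := (aeval (AdjoinSimple.gen k x) : k[X] →ₐ[k] k⟮x⟯).toRingHom with hg
  have hbsum : b = ∑ i, c i • f i := by
    conv_lhs => rw [← B.sum_repr b]
    refine Finset.sum_congr rfl fun i _ => ?_
    rw [hB, basis_apply]
  -- the linear system `T c = t`
  have hsys : ∀ j, ∑ i, (trMat P).map g j i * c i = g (t j) := by
    intro j
    show _ = aeval (AdjoinSimple.gen k x) (t j)
    rw [ht j]
    conv_rhs => rw [hbsum, Finset.sum_mul, map_sum]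
    refine Finset.sum_congr rfl fun i _ => ?_
    rw [smul_mul_assoc, map_smul, smul_eq_mul, mul_comm (f i) (f j), M.trace_mul hrank,
      Matrix.map_apply, mul_comm]
    rfl
  have hsys' : ((trMat P).map g).mulVec c = fun j => g (t j) := by
    funext j
    exact hsys j
  -- Cramer
  have hadj : (trMat P).adjugate.map g = ((trMat P).map g).adjugate :=
    RingHom.map_adjugate g (trMat P)
  have hdet : g (discr P) = ((trMat P).map g).det := RingHom.map_det g (trMat P)
  have hcram : (g (discr P)) • c = ((trMat P).adjugate.map g).mulVec fun j => g (t j) := by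
    rw [← hsys', Matrix.mulVec_mulVec, hadj, Matrix.adjugate_mul,
      Matrix.smul_mulVec, Matrix.one_mulVec, hdet]
  refine ⟨(trMat P).adjugate.mulVec t, ?_⟩
  have hu : ∀ i, g ((trMat P).adjugate.mulVec t i) = g (discr P) * c i := by
    intro i
    have := congrFun hcram i
    rw [Pi.smul_apply, smul_eq_mul] at this
    rw [this, Matrix.mulVec, Matrix.mulVec, dotProduct, dotProduct, map_sum]
    refine Finset.sum_congr rfl fun j _ => ?_
    rw [map_mul, Matrix.map_apply]
  rw [ev_eq_sum_smul]
  conv_lhs => rw [hbsum, Finset.mul_sum]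
  refine Finset.sum_congr rfl fun i _ => ?_
  have hu' := hu i
  change aeval (AdjoinSimple.gen k x) _ = aeval (AdjoinSimple.gen k x) (discr P) * c i at hu'
  rw [hu', mul_smul, Algebra.smul_def (aeval (AdjoinSimple.gen k x) (discr P)),
    algebraMap_aeval_gen]

end IsModel

end Fermat.Agent.S27x.Spec.GaussNorm
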