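import Fermat.Agent.S27x.Spec.GaussNorm.ModelIntegral
import Fermat.Agent.S27x.Spec.GaussNorm.ModelDiscr

/-!
# P-S27 block D3: the degree of a weighted model (helper30)

`M : IsModel W x f i₀ P` (`B = ⊕ k[x] f_i ⊆ L`, `L = Frac B`).
* `exists_mul_eq_aeval` : every nonzero element of `B` divides a nonzero polynomial in `x`
  (inside `B`);
* `exists_eq_div` : every element of `L` is `b / c(x)` with `b ∈ B` and `c ≠ 0` a polynomial;
* `span_eq_top`, `finiteDimensional`, `finrank_eq` : `f` is a `k(x)`-basis of `L`, hence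
  `[L : k(x)] = card ι`.
-/

set_option autoImplicit false
set_option linter.unusedSectionVars false
set_option linter.style.haveILetI false

namespace Fermat.Agent.S27x.Spec.GaussNorm

open Polynomial IntermediateField Module

variable {ι : Type*} [Fintype ι]

namespace IsModel

variable {W : Weights ι} {k L : Type*} [Field k] [Field L] [Algebra k L]
  {x : L} {f : ι → L} {i₀ : ι} {P : ι → ι → ι → k[X]} (M : IsModel W x f i₀ P)

include M

/-- powers of elements of `B` are in `B` -/
theorem exists_ev_pow (u : ι → k[X]) (n : ℕ) : ∃ w : ι → k[X], ev x f u ^ n = ev x f w := by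
  classical
  induction n with
  | zero => exact ⟨Pi.single i₀ 1, by rw [pow_zero, M.ev_one]⟩
  | succ n ih =>
    obtain ⟨w, hw⟩ := ih
    exact ⟨star P w u, by rw [pow_succ, hw, M.ev_mul]⟩

/-- polynomial expressions (with coefficients in `k[x]`) of elements of `B` are in `B` -/
theorem exists_ev_aeval (u : ι → k[X]) (q : (Algebra.adjoin k {x})[X]) :
    ∃ w : ι → k[X], aeval (ev x f u) q = ev x f w := by
  classical
  induction q using Polynomial.induction_on' with
  | add p q hp hq =>
    obtain ⟨w₁, h₁⟩ := hp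
    obtain ⟨w₂, h₂⟩ := hq
    exact ⟨w₁ + w₂, by rw [map_add, h₁, h₂, ev_add]⟩
  | monomial n a =>
    obtain ⟨w, hw⟩ := M.exists_ev_pow u n
    obtain ⟨a, ha⟩ := a
    have ha' := ha
    rw [Algebra.adjoin_singleton_eq_range_aeval] at ha'
    obtain ⟨p, rfl⟩ := ha'
    refine ⟨star P (Pi.single i₀ p) w, ?_⟩
    rw [aeval_monomial, hw, ← M.ev_mul, M.ev_poly]
    rfl

/-- **every nonzero element of `B` divides (in `B`) a nonzero polynomial in `x`.** -/
theorem exists_mul_eq_aeval {u : ι → k[X]} (hu : u ≠ 0) :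
    ∃ (w : ι → k[X]) (c : k[X]), c ≠ 0 ∧ ev x f u * ev x f w = aeval x c := by
  classical
  have hb : ev x f u ≠ 0 := M.ev_ne_zero hu
  have hint : IsIntegral (Algebra.adjoin k {x}) (ev x f u) := M.isIntegral_ev u
  obtain ⟨q, hq0, hq⟩ := hint.isAlgebraic.exists_nonzero_coeff_and_aeval_eq_zero
    (mem_nonZeroDivisors_of_ne_zero hb)
  obtain ⟨w, hw⟩ := M.exists_ev_aeval u (-q.divX)
  have hc : ((q.coeff 0 : Algebra.adjoin k {x}) : L) ∈ (aeval x : k[X] →ₐ[k] L).range := by
    rw [← Algebra.adjoin_singleton_eq_range_aeval]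
    exact (q.coeff 0).2
  obtain ⟨c, hc⟩ := hc
  replace hc : aeval x c = ((q.coeff 0 : Algebra.adjoin k {x}) : L) := hc
  refine ⟨w, c, ?_, ?_⟩
  · rintro rfl
    apply hq0
    apply Subtype.ext
    rw [← hc, map_zero]
    rfl
  · have h1 : aeval (ev x f u) q =
        aeval (ev x f u) q.divX * ev x f u + algebraMap (Algebra.adjoin k {x}) L (q.coeff 0) := by
      conv_lhs => rw [← divX_mul_X_add q]
      rw [map_add, map_mul, aeval_X, aeval_C]
    rw [hq] at h1
    rw [← hw, map_neg, hc]
    have h2 : algebraMap (Algebra.adjoin k {x}) L (q.coeff 0) = ((q.coeff 0 : _) : L) := rfl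
    rw [h2] at h1
    linear_combination h1

/-- **every element of `L` is a quotient `b / c(x)` with `b ∈ B`, `c ≠ 0`.** -/
theorem exists_eq_div (z : L) :
    ∃ (p : ι → k[X]) (c : k[X]), c ≠ 0 ∧ z * aeval x c = ev x f p := by
  obtain ⟨p, q, hq, h⟩ := M.frac z
  obtain ⟨w, c, hc, hw⟩ := M.exists_mul_eq_aeval hq
  refine ⟨star P p w, c, hc, ?_⟩
  rw [← hw, ← mul_assoc, h, M.ev_mul]

open scoped IntermediateField.algebraAdjoinAdjoin in
/-- the family `f` spans `L` over `k(x)` -/
theorem span_eq_top : Submodule.span k⟮x⟯ (Set.range f) = ⊤ := by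
  rw [eq_top_iff]
  intro z _
  obtain ⟨p, c, hc, h⟩ := M.exists_eq_div z
  have hcx : aeval x c ≠ 0 := by
    intro h0
    exact hc ((transcendental_iff.mp M.transcendental) c h0)
  have hz : z = (aeval (AdjoinSimple.gen k x) c)⁻¹ • ev x f p := by
    rw [Algebra.smul_def, map_inv₀, algebraMap_aeval_gen, ← h]
    field_simp
  rw [hz]
  refine Submodule.smul_mem _ _ ?_
  rw [ev_eq_sum_smul]
  exact Submodule.sum_mem _ fun i _ => Submodule.smul_mem _ _ (Submodule.subset_span ⟨i, rfl⟩)

/-- `f` as a `k(x)`-basis of `L` (no rank hypothesis). -/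
noncomputable def basis' : Basis ι k⟮x⟯ L :=
  Basis.mk M.linearIndependent M.span_eq_top.ge

theorem coe_basis' : ⇑M.basis' = f := Basis.coe_mk _ _

/-- **`L` is finite over `k(x)`.** -/
theorem finiteDimensional : FiniteDimensional k⟮x⟯ L :=
  Module.Finite.of_basis M.basis'

/-- **`[L : k(x)] = card ι`.** -/
theorem finrank_eq : finrank k⟮x⟯ L = Fintype.card ι :=
  finrank_eq_card_basis M.basis'

end IsModel

end Fermat.Agent.S27x.Spec.GaussNorm
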