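import Fermat.Agent.S27x.Spec.GaussNorm.ModelPole
import Fermat.Agent.S27x.Spec.GaussNorm.ModelDegree
import Fermat.Agent.S27x.Spec.AperyRR

/-!
# P-S27 block D4 (P5): the genus of a normal weighted model

`M : IsModel W x f i₀ P` over an algebraically closed field `k` of characteristic zero with
`card ι = d`, and `hnorm` : every element of `L` integral over `k[x]` is an `ev x f u`
(`B = ⊕ k[x] f_i` is integrally closed).  Then

* `M.mem_regularOff_inftyPlace_iff` : the functions regular off the place at infinity are exactly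
  the elements of `B`;
* `M.poleNumbers_inftyPlace` : the Weierstrass semigroup at infinity is `W.semigroup`
  `= {d a + m i}`;
* `M.genusFF_eq_ncard` : `genusFF k L = #(ℕ ∖ W.semigroup)`; it depends on the weights only, so two
  normal models with the same weights have the same genus (`genusFF_eq_of_models`);
* `M.exists_ev_of_isIntegral_of_ord` : `b` integral with pole order `≤ N` at infinity is `ev u`
  with `wdeg u ≤ N`.
-/

set_option autoImplicit false
set_option linter.unusedSectionVars false
set_option linter.style.haveILetI false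

namespace Fermat.Agent.S27x.Spec.GaussNorm

open Polynomial AlgebraicCurve IntermediateField Fermat.Agent.S27x.Spec

variable {ι : Type*} [Fintype ι]

/-- The numerical semigroup of a system of weights. -/
def Weights.semigroup (W : Weights ι) : Set ℕ := {n | ∃ (a : ℕ) (i : ι), n = W.d * a + W.m i}

theorem Weights.wdeg_mem_semigroup (W : Weights ι) {R : Type*} [CommRing R] {u : ι → R[X]}
    (hu : u ≠ 0) : W.wdeg u ∈ W.semigroup := by
  obtain ⟨i, -, hi⟩ := W.exists_wdeg_eq hu
  exact ⟨(u i).natDegree, i, hi.symm⟩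

namespace IsModel

variable {W : Weights ι} {k L : Type*} [Field k] [Field L] [Algebra k L]
  {x : L} {f : ι → L} {i₀ : ι} {P : ι → ι → ι → k[X]} (M : IsModel W x f i₀ P)
include M

theorem ev_mem_regularOff (hcard : Fintype.card ι = W.d) (u : ι → k[X]) :
    ev x f u ∈ AperyRR.regularOff M.inftyPlace :=
  fun _ hv => M.ev_mem_of_ne_inftyPlace hcard hv u

theorem x_mem_regularOff (hcard : Fintype.card ι = W.d) :
    x ∈ AperyRR.regularOff M.inftyPlace := by
  classical
  have h := M.ev_mem_regularOff hcard (Pi.single i₀ X)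
  rwa [M.ev_poly, aeval_X] at h

theorem poleOrd_inftyPlace_ev (hcard : Fintype.card ι = W.d) {u : ι → k[X]} (hu : u ≠ 0) :
    AperyRR.poleOrd M.inftyPlace (ev x f u) = W.wdeg u := by
  unfold AperyRR.poleOrd
  rw [M.ord_inftyPlace_ev hcard hu, neg_neg, Int.toNat_natCast]

theorem poleOrd_inftyPlace_x (hcard : Fintype.card ι = W.d) :
    AperyRR.poleOrd M.inftyPlace x = W.d := by
  unfold AperyRR.poleOrd
  rw [M.ord_inftyPlace_x hcard, neg_neg, Int.toNat_natCast]

/-- `b` integral with pole order `≤ N` at infinity is `ev u` with `wdeg u ≤ N`. -/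
theorem exists_ev_of_isIntegral_of_ord (hcard : Fintype.card ι = W.d)
    (hnorm : ∀ b : L, IsIntegral (Algebra.adjoin k {x}) b → ∃ u : ι → k[X], b = ev x f u)
    {b : L} (hb : IsIntegral (Algebra.adjoin k {x}) b) {N : ℕ}
    (hN : -(N : ℤ) ≤ M.inftyPlace.ord b) : ∃ u : ι → k[X], b = ev x f u ∧ W.wdeg u ≤ N := by
  obtain ⟨u, rfl⟩ := hnorm b hb
  refine ⟨u, rfl, ?_⟩
  by_cases hu : u = 0
  · rw [hu, W.wdeg_zero]
    exact Nat.zero_le _
  · rw [M.ord_inftyPlace_ev hcard hu] at hN
    omega

section CZ

variable [IsAlgClosed k] [CharZero k]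

/-- The functions regular off infinity are integral over `k[x]`. -/
theorem isIntegral_of_mem_regularOff (hcard : Fintype.card ι = W.d) {b : L}
    (hb : b ∈ AperyRR.regularOff M.inftyPlace) : IsIntegral (Algebra.adjoin k {x}) b := by
  haveI := M.finiteDimensional
  exact (AperyRR.mem_regularOff_iff_isIntegral M.transcendental (M.x_mem_regularOff hcard)
    W.d_pos (M.poleOrd_inftyPlace_x hcard) b).mp hb

/-- For a normal model, the functions regular off infinity are exactly the elements of `B`. -/
theorem mem_regularOff_inftyPlace_iff (hcard : Fintype.card ι = W.d)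
    (hnorm : ∀ b : L, IsIntegral (Algebra.adjoin k {x}) b → ∃ u : ι → k[X], b = ev x f u)
    {b : L} : b ∈ AperyRR.regularOff M.inftyPlace ↔ ∃ u : ι → k[X], b = ev x f u := by
  constructor
  · intro hb
    exact hnorm b (M.isIntegral_of_mem_regularOff hcard hb)
  · rintro ⟨u, rfl⟩
    exact M.ev_mem_regularOff hcard u

/-- The Weierstrass semigroup at infinity of a normal model is the semigroup of the weights. -/
theorem poleNumbers_inftyPlace (hcard : Fintype.card ι = W.d)
    (hnorm : ∀ b : L, IsIntegral (Algebra.adjoin k {x}) b → ∃ u : ι → k[X], b = ev x f u) :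
    AperyRR.poleNumbers M.inftyPlace = W.semigroup := by
  classical
  ext n
  constructor
  · rintro ⟨b, hb, hb0, rfl⟩
    obtain ⟨u, rfl⟩ := (M.mem_regularOff_inftyPlace_iff hcard hnorm).mp hb
    have hu : u ≠ 0 := by
      rintro rfl
      exact hb0 (ev_zero x f)
    rw [M.poleOrd_inftyPlace_ev hcard hu]
    exact W.wdeg_mem_semigroup hu
  · rintro ⟨a, i, rfl⟩
    have hXa : (X : k[X]) ^ a ≠ 0 := pow_ne_zero _ X_ne_zero
    have hs : (Pi.single i ((X : k[X]) ^ a) : ι → k[X]) ≠ 0 := single_ne_zero' i hXa
    refine ⟨ev x f (Pi.single i ((X : k[X]) ^ a)), M.ev_mem_regularOff hcard _,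
      M.ev_ne_zero hs, ?_⟩
    rw [M.poleOrd_inftyPlace_ev hcard hs, W.wdeg_single i hXa, natDegree_X_pow]

/-- **The genus of a normal weighted model is the number of gaps of the semigroup of weights.** -/
theorem genusFF_eq_ncard (hcard : Fintype.card ι = W.d)
    (hnorm : ∀ b : L, IsIntegral (Algebra.adjoin k {x}) b → ∃ u : ι → k[X], b = ev x f u) :
    genusFF k L = (W.semigroupᶜ).ncard := by
  haveI := M.finiteDimensional
  rw [← M.poleNumbers_inftyPlace hcard hnorm,
    AperyRR.ncard_compl_poleNumbers M.transcendental M.inftyPlace]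

end CZ

end IsModel

/-- **Two normal weighted models with the same weights have the same genus.** -/
theorem genusFF_eq_of_models {W : Weights ι} {k L : Type*} [Field k] [Field L] [Algebra k L]
    [IsAlgClosed k] [CharZero k] {x : L} {f : ι → L} {i₀ : ι} {P : ι → ι → ι → k[X]}
    (M : IsModel W x f i₀ P) {k' L' : Type*} [Field k'] [Field L'] [Algebra k' L']
    [IsAlgClosed k'] [CharZero k'] {x' : L'} {f' : ι → L'} {i₀' : ι} {P' : ι → ι → ι → k'[X]}
    (M' : IsModel W x' f' i₀' P') (hcard : Fintype.card ι = W.d)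
    (hnorm : ∀ b : L, IsIntegral (Algebra.adjoin k {x}) b → ∃ u : ι → k[X], b = ev x f u)
    (hnorm' : ∀ b : L', IsIntegral (Algebra.adjoin k' {x'}) b →
      ∃ u : ι → k'[X], b = ev x' f' u) :
    genusFF k L = genusFF k' L' := by
  rw [M.genusFF_eq_ncard hcard hnorm, M'.genusFF_eq_ncard hcard hnorm']

end Fermat.Agent.S27x.Spec.GaussNorm
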