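import Fermat.Agent.S27x.Spec.GaussNorm.Residue
import Fermat.Agent.S27x.Spec.GaussNorm.ModelDegree
import Fermat.Agent.S27x.Spec.GaussNorm.ModelIntegral

/-!
# P-S27 block D3: the hypotheses `hdeg`, `hint1`, `hint2`, `hcart` of GATEWAY C0

For an integral Apéry model `D : AperyData A F ι` with reduction `(k, κ, x̄, f̄)`:

* `finrank_K`, `finrank_k`, `hdeg` : `[κ : k(x̄)] = card ι = [F : K(x)]`;
* `hint1` : integrality over `K[x]` is preserved by reduction (input: the integral closure of `K[x]`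
  is `B = ⊕ K[x] f_i`);
* `hint2` : integrality over `K[1/x]` is preserved by reduction (input: an element integral over
  `K[1/x]` is `x^{-N} b` with `b ∈ B` of weighted degree `≤ N d`);
* `fg_lattice`, `hcart` : `V ∩ O` is a finitely generated `A`-module for finite dimensional `V`.
-/

set_option autoImplicit false
set_option linter.unusedSectionVars false

namespace Fermat.Agent.S27x.Spec.GaussNorm

open Polynomial IsLocalRing IntermediateField Module

variable {ι : Type*} [Fintype ι]

section wdegmap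

variable {R S : Type*} [CommRing R] [CommRing S] (W : Weights ι)

theorem Weights.wdeg_map_le (g : R →+* S) (u : ι → R[X]) :
    W.wdeg (fun i => (u i).map g) ≤ W.wdeg u := by
  rw [Weights.wdeg_le_iff]
  intro i hi
  have hne : u i ≠ 0 := fun h0 => hi (by simp [h0])
  have h1 : ((u i).map g).natDegree ≤ (u i).natDegree := natDegree_map_le
  have h2 := W.le_wdeg hne
  have h3 := Nat.mul_le_mul_left W.d h1
  omega

theorem Weights.wdeg_map_of_injective {g : R →+* S} (hg : Function.Injective g) (u : ι → R[X]) :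
    W.wdeg (fun i => (u i).map g) = W.wdeg u := by
  apply le_antisymm (W.wdeg_map_le g u)
  rw [Weights.wdeg_le_iff]
  intro i hi
  have hne : (u i).map g ≠ 0 := (Polynomial.map_ne_zero_iff hg).mpr hi
  have h2 := W.le_wdeg (u := fun i => (u i).map g) hne
  rwa [natDegree_map_eq_of_injective hg] at h2

end wdegmap

variable {K : Type*} [Field K] {A : ValuationSubring K} {F : Type*} [Field F] [Algebra K F]

namespace AperyData

variable (D : AperyData A F ι)

/-- A tuple over `K` whose value lies in `O` comes from a tuple over `A`. -/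
theorem exists_toK_of_mem {p : ι → K[X]} (h : ev D.x D.f p ∈ D.O) :
    ∃ u : ι → A[X], p = toK u := by
  have hcoeff := (D.mem_O_iff p).mp h
  exact ⟨fun i => liftPoly (p i) (hcoeff i), funext fun i => (liftPoly_map _ _).symm⟩

theorem finrank_K : finrank K⟮D.x⟯ F = Fintype.card ι := D.model.finrank_eq

theorem finiteDimensional_K : FiniteDimensional K⟮D.x⟯ F := D.model.finiteDimensional

section residue

variable {k : Type*} [Field k] [Algebra k D.κ] {π : A →+* k} (hc : D.Compat π)
  (hπ : Function.Surjective π)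
include hc hπ

theorem finrank_k : finrank k⟮D.xb⟯ D.κ = Fintype.card ι := (D.modelb hc hπ).finrank_eq

theorem finiteDimensional_k : FiniteDimensional k⟮D.xb⟯ D.κ := (D.modelb hc hπ).finiteDimensional

/-- **`hdeg`**: full residue degree. -/
theorem hdeg : finrank k⟮D.xb⟯ D.κ ≤ finrank K⟮D.x⟯ F := by
  rw [D.finrank_k hc hπ, D.finrank_K]

theorem finrank_eq_finrank : finrank k⟮D.xb⟯ D.κ = finrank K⟮D.x⟯ F := by
  rw [D.finrank_k hc hπ, D.finrank_K]

/-- **`hint1`**: integrality over `K[x]` is preserved by reduction. -/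
theorem hint1
    (hB : ∀ g : F, IsIntegral (Algebra.adjoin K {D.x}) g → ∃ u : ι → K[X], g = ev D.x D.f u)
    (g : F) (hg : g ∈ D.O) (hint : IsIntegral (Algebra.adjoin K {D.x}) g) :
    IsIntegral (Algebra.adjoin k {D.xb}) (D.res ⟨g, hg⟩) := by
  obtain ⟨p, rfl⟩ := hB g hint
  obtain ⟨u, rfl⟩ := D.exists_toK_of_mem hg
  have h1 : (⟨ev D.x D.f (toK u), hg⟩ : D.O) = ⟨ev D.x D.f u, D.evA_mem u⟩ :=
    Subtype.ext (D.evK_toK u)
  rw [h1, D.res_ev hc]
  exact (D.modelb hc hπ).isIntegral_ev _

omit hπ in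
theorem res_x_inv : D.res ⟨D.x⁻¹, D.x_inv_mem⟩ = D.xb⁻¹ := by
  have hx0 : D.x ≠ 0 := by
    intro h0
    have := D.model.transcendental
    rw [h0] at this
    exact this isAlgebraic_zero
  have h1 : (⟨D.x⁻¹, D.x_inv_mem⟩ : D.O) * D.xO = 1 := by
    apply Subtype.ext
    show D.x⁻¹ * D.x = 1
    exact inv_mul_cancel₀ hx0
  have h2 := congrArg D.res h1
  rw [map_mul, map_one] at h2
  exact eq_inv_of_mul_eq_one_left h2

/-- **`hint2`**: integrality over `K[1/x]` is preserved by reduction. -/
theorem hint2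
    (hB' : ∀ g : F, IsIntegral (Algebra.adjoin K {D.x⁻¹}) g →
      ∃ (N : ℕ) (u : ι → K[X]), D.W.wdeg u ≤ N * D.W.d ∧ g = D.x⁻¹ ^ N * ev D.x D.f u)
    (g : F) (hg : g ∈ D.O) (hint : IsIntegral (Algebra.adjoin K {D.x⁻¹}) g) :
    IsIntegral (Algebra.adjoin k {D.xb⁻¹}) (D.res ⟨g, hg⟩) := by
  obtain ⟨N, p, hN, rfl⟩ := hB' g hint
  have hx0 : D.x ≠ 0 := by
    intro h0
    have := D.model.transcendental
    rw [h0] at this
    exact this isAlgebraic_zero
  have hp : ev D.x D.f p ∈ D.O := by
    have h1 : ev D.x D.f p = D.x ^ N * (D.x⁻¹ ^ N * ev D.x D.f p) := by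
      rw [← mul_assoc, ← mul_pow, mul_inv_cancel₀ hx0, one_pow, one_mul]
    rw [h1]
    exact mul_mem (pow_mem D.x_mem N) hg
  obtain ⟨u, rfl⟩ := D.exists_toK_of_mem hp
  have h1 : (⟨D.x⁻¹ ^ N * ev D.x D.f (toK u), hg⟩ : D.O) =
      ⟨D.x⁻¹, D.x_inv_mem⟩ ^ N * ⟨ev D.x D.f u, D.evA_mem u⟩ := by
    apply Subtype.ext
    show D.x⁻¹ ^ N * ev D.x D.f (toK u) = D.x⁻¹ ^ N * ev D.x D.f u
    rw [D.evK_toK]
  rw [h1, map_mul, map_pow, D.res_x_inv hc, D.res_ev hc]
  refine (D.modelb hc hπ).isIntegral_inv_pow_mul_ev ?_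
  refine (D.W.wdeg_map_le π u).trans ?_
  have h2 : D.W.wdeg (toK u) = D.W.wdeg u :=
    D.W.wdeg_map_of_injective (FaithfulSMul.algebraMap_injective A K) u
  rw [← h2]
  exact hN

end residue

/-! ### Cartesian lattices -/

section cartesian

/-- The family `x ^ n * f i`. -/
noncomputable def monoFam (s : ι × ℕ) : F := D.x ^ s.2 * D.f s.1

open scoped Classical in
/-- The tuple of polynomials attached to a finitely supported family of coefficients. -/
noncomputable def tupleOf (a : ι × ℕ →₀ K) : ι → K[X] :=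
  fun i => ∑ s ∈ a.support, if s.1 = i then monomial s.2 (a s) else 0

omit [Fintype ι] in
theorem coeff_tupleOf (a : ι × ℕ →₀ K) (i : ι) (n : ℕ) : (tupleOf a i).coeff n = a (i, n) := by
  classical
  unfold tupleOf
  rw [finsetSum_coeff]
  rw [Finset.sum_eq_single (i, n)]
  · simp
  · intro s _ hs
    by_cases h1 : s.1 = i
    · rw [if_pos h1, coeff_monomial, if_neg]
      intro h2
      exact hs (Prod.ext h1 h2)
    · rw [if_neg h1, coeff_zero]
  · intro h
    rw [Finsupp.notMem_support_iff.mp h]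
    simp

omit [Fintype ι] in
theorem tupleOf_add (a b : ι × ℕ →₀ K) : tupleOf (a + b) = tupleOf a + tupleOf b := by
  funext i
  ext n
  simp [coeff_tupleOf]

omit [Fintype ι] in
theorem tupleOf_single [DecidableEq ι] (i : ι) (n : ℕ) (c : K) :
    tupleOf (Finsupp.single (i, n) c) = Pi.single i (monomial n c) := by
  funext j
  ext m
  rw [coeff_tupleOf]
  by_cases hj : j = i
  · subst hj
    rw [Pi.single_eq_same, coeff_monomial]
    by_cases hm : n = m
    · subst hm; simp
    · rw [if_neg hm, Finsupp.single_apply, if_neg]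
      intro h
      exact hm (Prod.ext_iff.mp h).2
  · rw [Pi.single_eq_of_ne hj, coeff_zero, Finsupp.single_apply, if_neg]
    intro h
    exact hj (Prod.ext_iff.mp h).1.symm

theorem sum_eq_ev (a : ι × ℕ →₀ K) :
    (a.sum fun s c => c • D.monoFam s) = ev D.x D.f (tupleOf a) := by
  classical
  induction a using Finsupp.induction_linear with
  | zero =>
    rw [Finsupp.sum_zero_index]
    have : tupleOf (0 : ι × ℕ →₀ K) = 0 := by
      funext i; ext n; simp [coeff_tupleOf]
    rw [this, ev_zero]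
  | add a b ha hb =>
    rw [Finsupp.sum_add_index' (by intro s; simp) (by intro s c₁ c₂; rw [add_smul]), ha, hb,
      tupleOf_add, ev_add]
  | single s c =>
    obtain ⟨i, n⟩ := s
    rw [Finsupp.sum_single_index (by simp), tupleOf_single, ev_single, aeval_monomial, monoFam,
      Algebra.smul_def, mul_assoc]

theorem linearIndependent_monoFam : LinearIndependent K D.monoFam := by
  rw [linearIndependent_iff]
  intro a ha
  rw [Finsupp.linearCombination_apply, D.sum_eq_ev] at ha
  have h0 := D.model.indep _ ha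
  ext ⟨i, n⟩
  rw [← coeff_tupleOf, h0]
  simp

theorem orthonormal_monoFam (a : ι × ℕ →₀ K) :
    (a.sum fun s c => c • D.monoFam s) ∈ D.O ↔ ∀ s, a s ∈ A := by
  rw [D.sum_eq_ev, D.mem_O_iff]
  constructor
  · rintro h ⟨i, n⟩
    rw [← coeff_tupleOf]
    exact h i n
  · intro h i n
    rw [coeff_tupleOf]
    exact h (i, n)

theorem ev_mem_span_monoFam (p : ι → K[X]) :
    ev D.x D.f p ∈ Submodule.span K (Set.range D.monoFam) := by
  unfold ev
  refine Submodule.sum_mem _ fun i _ => ?_
  rw [aeval_eq_sum_range, Finset.sum_mul]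
  refine Submodule.sum_mem _ fun n _ => ?_
  rw [smul_mul_assoc]
  exact Submodule.smul_mem _ _ (Submodule.subset_span ⟨(i, n), rfl⟩)

/-- A common denominator in `B` for a finitely generated `K`-subspace of `F`. -/
theorem exists_common_denominator (S : Finset F) :
    ∃ q : ι → K[X], q ≠ 0 ∧ ∀ g ∈ Submodule.span K (S : Set F),
      ∃ p : ι → K[X], g * ev D.x D.f q = ev D.x D.f p := by
  classical
  induction S using Finset.induction_on with
  | empty =>
    refine ⟨Pi.single D.i₀ 1, ?_, ?_⟩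
    · intro h
      have := congrFun h D.i₀
      rw [Pi.single_eq_same] at this
      exact one_ne_zero this
    · intro g hg
      rw [Finset.coe_empty, Submodule.span_empty, Submodule.mem_bot] at hg
      exact ⟨0, by rw [hg, zero_mul, ev_zero]⟩
  | insert s S _ ih =>
    obtain ⟨q, hq, hS⟩ := ih
    obtain ⟨ps, qs, hqs, hs⟩ := D.model.frac s
    refine ⟨star (fun i j l => (D.P i j l).map (algebraMap A K)) q qs,
      D.model.star_ne_zero hq hqs, ?_⟩
    intro g hg
    rw [Finset.coe_insert, Submodule.mem_span_insert] at hg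
    obtain ⟨c, g', hg', rfl⟩ := hg
    obtain ⟨p', hp'⟩ := hS g' hg'
    refine ⟨C c • star (fun i j l => (D.P i j l).map (algebraMap A K)) ps q +
      star (fun i j l => (D.P i j l).map (algebraMap A K)) p' qs, ?_⟩
    rw [ev_add, ev_smul, aeval_C, ← D.model.ev_mul, ← D.model.ev_mul, ← D.model.ev_mul, ← hs,
      ← hp', Algebra.smul_def]
    ring

/-- **Cartesian lattices**: `V ∩ O` is a finitely generated `A`-module. -/
theorem fg_lattice (V : Submodule K F) [FiniteDimensional K V] (L : Submodule A F)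
    (hL : ∀ g, g ∈ L ↔ g ∈ V ∧ g ∈ D.O) : L.FG := by
  classical
  obtain ⟨S, hS⟩ : V.FG := (Submodule.fg_iff_finiteDimensional V).mpr inferInstance
  obtain ⟨q, hq, hden⟩ := D.exists_common_denominator S
  obtain ⟨b, q₁, hb, hq₁, rfl⟩ := exists_content (A := A) hq
  have hQ0 : ev D.x D.f q₁ ≠ 0 := D.evA_ne_zero (IsPrim.ne_zero hq₁)
  refine Fermat.Agent.Gateway.C0.fg_inf_of_orthonormal_mul A D.O D.monoFam
    D.linearIndependent_monoFam D.orthonormal_monoFam V (ev D.x D.f q₁) hQ0 (D.evA_mem q₁)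
    (D.inv_evA_mem hq₁) ?_ L hL
  intro g hg
  obtain ⟨p, hp⟩ := hden g (hS ▸ hg)
  rw [D.evK_C_smul, D.evK_toK] at hp
  have hb' : algebraMap K F b ≠ 0 := (_root_.map_ne_zero _).mpr hb
  have h1 : ev D.x D.f q₁ * g = ev D.x D.f (C b⁻¹ • p) := by
    rw [D.evK_C_smul, ← hp, map_inv₀]
    field_simp
  rw [h1]
  exact D.ev_mem_span_monoFam _

/-- **`hcart`** for any reduction setup on `D.O`. -/
theorem hcart {k κ' : Type*} [Field k] [Field κ'] [Algebra k κ']
    (R : Fermat.Agent.Gateway.C0.RedSetup A D.O k κ') (V : Submodule K F)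
    (_ : FiniteDimensional K V) : (R.lat V).FG :=
  D.fg_lattice V (R.lat V) (fun _ => Iff.rfl)

end cartesian

end AperyData

end Fermat.Agent.S27x.Spec.GaussNorm
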