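import Fermat.Agent.S27x.Spec.GaussNorm.Model
import Fermat.Agent.S24.PlacesDedekind

/-!
# P-S27 block D3: the place at infinity of a weighted model

For a weighted model `M : IsModel W x f i₀ P` (`B = ⊕ k[x] f_i ⊂ L = Frac B`) the weighted degree
`wdeg` extends to a `ℤ`-valued degree on `L^×` (`M.deg`, `deg (ev p / ev q) = wdeg p - wdeg q`) and
`z ↦ exp (deg z)` is a valuation `M.inftyVal : Valuation L ℤᵐ⁰` (the pole order at infinity).

* `M.inftyRing : ValuationSubring L`, `M.mem_inftyRing_iff`;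
* `M.inftyPlace : AlgebraicCurve.Place k L`;
* `M.ord_inftyPlace_ev` : `ord (ev u) = - wdeg u` when `card ι = d` (all residues mod `d` occur);
* `M.ord_inftyPlace_x`, `M.x_inv_mem_maximalIdeal`.
-/

set_option autoImplicit false
set_option linter.unusedSectionVars false

namespace Fermat.Agent.S27x.Spec.GaussNorm

open Polynomial WithZero

variable {ι : Type*} [Fintype ι]

/-! ### Complements on `wdeg` -/

section wdeg

variable (W : Weights ι) {R : Type*} [CommRing R]

theorem Weights.wdeg_add_le (u w : ι → R[X]) :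
    W.wdeg (u + w) ≤ max (W.wdeg u) (W.wdeg w) := by
  rw [Weights.wdeg_le_iff]
  intro i hi
  by_cases hu : u i = 0
  · have hw : w i ≠ 0 := by
      intro hw; apply hi; rw [Pi.add_apply, hu, hw, add_zero]
    have e : (u + w) i = w i := by rw [Pi.add_apply, hu, zero_add]
    rw [e]
    exact (W.le_wdeg hw).trans (le_max_right _ _)
  by_cases hw : w i = 0
  · have e : (u + w) i = u i := by rw [Pi.add_apply, hw, add_zero]
    rw [e]
    exact (W.le_wdeg hu).trans (le_max_left _ _)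
  have h1 : ((u + w) i).natDegree ≤ max (u i).natDegree (w i).natDegree := natDegree_add_le _ _
  rcases le_max_iff.mp h1 with h | h
  · refine le_trans ?_ ((W.le_wdeg hu).trans (le_max_left _ _))
    exact Nat.add_le_add_right (Nat.mul_le_mul_left _ h) _
  · refine le_trans ?_ ((W.le_wdeg hw).trans (le_max_right _ _))
    exact Nat.add_le_add_right (Nat.mul_le_mul_left _ h) _

theorem Weights.wdeg_single [DecidableEq ι] [Nontrivial R] (i : ι) {p : R[X]} (hp : p ≠ 0) :
    W.wdeg (Pi.single i p) = W.d * p.natDegree + W.m i := by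
  apply le_antisymm
  · rw [Weights.wdeg_le_iff]
    intro j hj
    by_cases hji : j = i
    · subst hji
      rw [Pi.single_eq_same]
    · have hz : (Pi.single i p : ι → R[X]) j = 0 := by rw [Pi.single_eq_of_ne hji]
      exact absurd hz hj
  · have h : (Pi.single i p : ι → R[X]) i ≠ 0 := by rwa [Pi.single_eq_same]
    have := W.le_wdeg h
    rwa [Pi.single_eq_same] at this

theorem single_ne_zero' [DecidableEq ι] (i : ι) {p : R[X]} (hp : p ≠ 0) :
    (Pi.single i p : ι → R[X]) ≠ 0 := by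
  intro h
  apply hp
  have := congrFun h i
  rwa [Pi.single_eq_same] at this

end wdeg

namespace IsModel

variable {W : Weights ι} {k L : Type*} [Field k] [Field L] [Algebra k L]
  {x : L} {f : ι → L} {i₀ : ι} {P : ι → ι → ι → k[X]} (M : IsModel W x f i₀ P)
include M

/-! ### The degree at infinity -/

theorem num_ne_zero {z : L} (hz : z ≠ 0) {p q : ι → k[X]} (hq : q ≠ 0)
    (h : z * ev x f q = ev x f p) : p ≠ 0 := by
  rintro rfl
  rw [ev_zero] at h
  rcases mul_eq_zero.mp h with h | h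
  · exact hz h
  · exact M.ev_ne_zero hq h

/-- Two representations of the same element have the same degree. -/
theorem wdeg_add_wdeg_eq {z : L} (hz : z ≠ 0) {p q p' q' : ι → k[X]} (hq : q ≠ 0)
    (hq' : q' ≠ 0) (h : z * ev x f q = ev x f p) (h' : z * ev x f q' = ev x f p') :
    W.wdeg p + W.wdeg q' = W.wdeg p' + W.wdeg q := by
  have hp := M.num_ne_zero hz hq h
  have hp' := M.num_ne_zero hz hq' h'
  have e : ev x f (star P p q') = ev x f (star P p' q) := by
    rw [← M.ev_mul, ← M.ev_mul, ← h, ← h']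
    ring
  have e2 := M.ev_injective e
  rw [← M.wdeg_star hp hq', ← M.wdeg_star hp' hq, e2]

open Classical in
/-- The degree at infinity: `deg (ev p / ev q) = wdeg p - wdeg q`; `deg 0 = 0` by convention. -/
noncomputable def deg (z : L) : ℤ :=
  (W.wdeg (M.frac z).choose : ℤ) - W.wdeg (M.frac z).choose_spec.choose

theorem deg_eq {z : L} (hz : z ≠ 0) {p q : ι → k[X]} (hq : q ≠ 0)
    (h : z * ev x f q = ev x f p) : M.deg z = (W.wdeg p : ℤ) - W.wdeg q := by
  obtain ⟨hq₀, h₀⟩ := (M.frac z).choose_spec.choose_spec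
  have := M.wdeg_add_wdeg_eq hz hq hq₀ h h₀
  unfold deg
  omega

theorem deg_ev [DecidableEq ι] {u : ι → k[X]} (hu : u ≠ 0) : M.deg (ev x f u) = W.wdeg u := by
  have h1 : (Pi.single i₀ (1 : k[X]) : ι → k[X]) ≠ 0 := single_ne_zero' i₀ one_ne_zero
  have e : ev x f u * ev x f (Pi.single i₀ (1 : k[X])) = ev x f u := by
    rw [M.ev_one, mul_one]
  have h2 : W.wdeg (Pi.single i₀ (1 : k[X]) : ι → k[X]) = 0 := by
    rw [W.wdeg_single i₀ (one_ne_zero : (1 : k[X]) ≠ 0), natDegree_one, M.m_zero, mul_zero]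
  rw [M.deg_eq (M.ev_ne_zero hu) h1 e, h2]
  simp

theorem deg_one : M.deg (1 : L) = 0 := by
  classical
  have := M.deg_ev (u := Pi.single i₀ (1 : k[X])) (single_ne_zero' i₀ one_ne_zero)
  rw [M.ev_one, W.wdeg_single i₀ (one_ne_zero : (1 : k[X]) ≠ 0), natDegree_one, M.m_zero] at this
  simpa using this

theorem deg_mul {z₁ z₂ : L} (h₁ : z₁ ≠ 0) (h₂ : z₂ ≠ 0) :
    M.deg (z₁ * z₂) = M.deg z₁ + M.deg z₂ := by
  obtain ⟨p₁, q₁, hq₁, e₁⟩ := M.frac z₁
  obtain ⟨p₂, q₂, hq₂, e₂⟩ := M.frac z₂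
  have hp₁ := M.num_ne_zero h₁ hq₁ e₁
  have hp₂ := M.num_ne_zero h₂ hq₂ e₂
  have e : z₁ * z₂ * ev x f (star P q₁ q₂) = ev x f (star P p₁ p₂) := by
    rw [← M.ev_mul, ← M.ev_mul, ← e₁, ← e₂]
    ring
  rw [M.deg_eq (mul_ne_zero h₁ h₂) (M.star_ne_zero hq₁ hq₂) e, M.deg_eq h₁ hq₁ e₁,
    M.deg_eq h₂ hq₂ e₂, M.wdeg_star hp₁ hp₂, M.wdeg_star hq₁ hq₂]
  push_cast
  ring

theorem deg_add_le {z₁ z₂ : L} (h₁ : z₁ ≠ 0) (h₂ : z₂ ≠ 0) (h : z₁ + z₂ ≠ 0) :
    M.deg (z₁ + z₂) ≤ max (M.deg z₁) (M.deg z₂) := by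
  obtain ⟨p₁, q₁, hq₁, e₁⟩ := M.frac z₁
  obtain ⟨p₂, q₂, hq₂, e₂⟩ := M.frac z₂
  have hp₁ := M.num_ne_zero h₁ hq₁ e₁
  have hp₂ := M.num_ne_zero h₂ hq₂ e₂
  have e : (z₁ + z₂) * ev x f (star P q₁ q₂) = ev x f (star P p₁ q₂ + star P q₁ p₂) := by
    rw [ev_add, ← M.ev_mul, ← M.ev_mul, ← M.ev_mul, ← e₁, ← e₂]
    ring
  rw [M.deg_eq h (M.star_ne_zero hq₁ hq₂) e, M.deg_eq h₁ hq₁ e₁, M.deg_eq h₂ hq₂ e₂,
    M.wdeg_star hq₁ hq₂]
  have h3 := W.wdeg_add_le (star P p₁ q₂) (star P q₁ p₂)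
  rw [M.wdeg_star hp₁ hq₂, M.wdeg_star hq₁ hp₂] at h3
  rcases le_max_iff.mp h3 with h4 | h4
  · apply le_max_of_le_left
    push_cast
    omega
  · apply le_max_of_le_right
    push_cast
    omega

/-! ### The valuation at infinity -/

open Classical in
/-- The valuation at infinity, `z ↦ exp (deg z)`. -/
noncomputable def inftyVal : Valuation L ℤᵐ⁰ where
  toFun z := if z = 0 then 0 else exp (M.deg z)
  map_zero' := if_pos rfl
  map_one' := by
    rw [if_neg one_ne_zero, M.deg_one, exp_zero]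
  map_mul' z₁ z₂ := by
    by_cases h₁ : z₁ = 0
    · simp [h₁]
    by_cases h₂ : z₂ = 0
    · simp [h₂]
    rw [if_neg h₁, if_neg h₂, if_neg (mul_ne_zero h₁ h₂), M.deg_mul h₁ h₂, exp_add]
  map_add_le_max' z₁ z₂ := by
    by_cases h₁ : z₁ = 0
    · simp [h₁]
    by_cases h₂ : z₂ = 0
    · simp [h₂]
    by_cases h : z₁ + z₂ = 0
    · rw [if_pos h]
      exact zero_le
    rw [if_neg h₁, if_neg h₂, if_neg h]
    rcases le_max_iff.mp (M.deg_add_le h₁ h₂ h) with h3 | h3
    · exact le_max_of_le_left (exp_le_exp.mpr h3)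
    · exact le_max_of_le_right (exp_le_exp.mpr h3)

theorem inftyVal_apply {z : L} (hz : z ≠ 0) : M.inftyVal z = exp (M.deg z) := if_neg hz

theorem inftyVal_ev [DecidableEq ι] {u : ι → k[X]} (hu : u ≠ 0) :
    M.inftyVal (ev x f u) = exp (W.wdeg u : ℤ) := by
  rw [M.inftyVal_apply (M.ev_ne_zero hu), M.deg_ev hu]

theorem inftyVal_algebraMap (c : k) (hc : c ≠ 0) : M.inftyVal (algebraMap k L c) = 1 := by
  classical
  have hC : (C c : k[X]) ≠ 0 := by rwa [Ne, C_eq_zero]
  rw [← M.ev_C, M.inftyVal_ev (single_ne_zero' i₀ hC), W.wdeg_single i₀ hC, natDegree_C,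
    M.m_zero]
  simp

theorem inftyVal_x : M.inftyVal x = exp (W.d : ℤ) := by
  classical
  have hX : (X : k[X]) ≠ 0 := X_ne_zero
  have e : ev x f (Pi.single i₀ (X : k[X])) = x := by rw [M.ev_poly, aeval_X]
  have h1 := M.inftyVal_ev (single_ne_zero' i₀ hX)
  rw [e, W.wdeg_single i₀ hX, natDegree_X, M.m_zero] at h1
  rw [h1]
  simp

/-- The valuation ring at infinity. -/
noncomputable def inftyRing : ValuationSubring L := M.inftyVal.valuationSubring

theorem mem_inftyRing_iff {z : L} {p q : ι → k[X]} (hq : q ≠ 0)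
    (h : z * ev x f q = ev x f p) : z ∈ M.inftyRing ↔ p = 0 ∨ W.wdeg p ≤ W.wdeg q := by
  show M.inftyVal z ≤ 1 ↔ _
  by_cases hz : z = 0
  · subst hz
    rw [zero_mul] at h
    have hp : p = 0 := M.indep p h.symm
    simp [hp]
  · have hp := M.num_ne_zero hz hq h
    rw [M.inftyVal_apply hz, M.deg_eq hz hq h, ← exp_zero, exp_le_exp]
    constructor
    · intro h1
      right
      omega
    · rintro (h1 | h1)
      · exact absurd h1 hp
      · omega

theorem x_notMem_inftyRing : x ∉ M.inftyRing := by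
  show ¬ M.inftyVal x ≤ 1
  rw [M.inftyVal_x, ← exp_zero, exp_le_exp, not_le]
  exact_mod_cast W.d_pos

theorem algebraMap_mem_inftyRing (c : k) : algebraMap k L c ∈ M.inftyRing := by
  show M.inftyVal _ ≤ 1
  by_cases hc : c = 0
  · subst hc
    rw [map_zero, map_zero]
    exact zero_le
  · rw [M.inftyVal_algebraMap c hc]

end IsModel

/-! ### Valuation rings of `ℤᵐ⁰`-valued valuations are principal ideal rings -/

theorem isPrincipalIdealRing_valuationSubring_int {L : Type*} [Field L] (w : Valuation L ℤᵐ⁰) :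
    IsPrincipalIdealRing w.valuationSubring := by
  refine ⟨fun I => ?_⟩
  by_cases hI : I = ⊥
  · rw [hI]
    exact bot_isPrincipal
  -- the set of exponents of nonzero elements of `I` is nonempty and bounded above by `0`
  obtain ⟨a, haI, ha0⟩ := Submodule.exists_mem_ne_zero_of_ne_bot hI
  let S : Set ℤ := {n | ∃ b ∈ I, b ≠ 0 ∧ w (b : L) = exp n}
  have hval : ∀ b : w.valuationSubring, b ≠ 0 → w (b : L) = exp (log (w (b : L))) := by
    intro b hb
    have : w (b : L) ≠ 0 := by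
      rw [Valuation.ne_zero_iff]
      exact fun h => hb (Subtype.ext h)
    exact (exp_log this).symm
  have hS_ne : ∃ n, n ∈ S := ⟨log (w (a : L)), a, haI, ha0, hval a ha0⟩
  have hS_bdd : ∀ n ∈ S, n ≤ 0 := by
    rintro n ⟨b, -, -, hb⟩
    have h1 : w (b : L) ≤ 1 := b.2
    rwa [hb, ← exp_zero, exp_le_exp] at h1
  obtain ⟨n₀, ⟨a₀, ha₀I, ha₀0, ha₀⟩, hmax⟩ := Int.exists_greatest_of_bdd ⟨0, hS_bdd⟩ hS_ne
  refine ⟨a₀, ?_⟩
  apply le_antisymm
  · intro b hb
    rw [Submodule.mem_span_singleton]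
    by_cases hb0 : b = 0
    · exact ⟨0, by rw [hb0, zero_smul]⟩
    have hbn : log (w (b : L)) ≤ n₀ := hmax _ ⟨b, hb, hb0, hval b hb0⟩
    have ha₀L : (a₀ : L) ≠ 0 := fun h => ha₀0 (Subtype.ext h)
    have hdiv : w ((b : L) / (a₀ : L)) ≤ 1 := by
      rw [map_div₀, ha₀, hval b hb0, div_le_iff₀ exp_pos, one_mul, exp_le_exp]
      exact hbn
    refine ⟨⟨(b : L) / (a₀ : L), hdiv⟩, ?_⟩
    ext
    show (b : L) / (a₀ : L) * (a₀ : L) = b
    field_simp
  · rw [Submodule.span_singleton_le_iff_mem]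
    exact ha₀I

namespace IsModel

variable {W : Weights ι} {k L : Type*} [Field k] [Field L] [Algebra k L]
  {x : L} {f : ι → L} {i₀ : ι} {P : ι → ι → ι → k[X]} (M : IsModel W x f i₀ P)
include M

/-- The place at infinity of a weighted model. -/
noncomputable def inftyPlace : AlgebraicCurve.Place k L where
  toValuationSubring := M.inftyRing
  algebraMap_mem' := M.algebraMap_mem_inftyRing
  ne_top' := by
    intro h
    apply M.x_notMem_inftyRing
    rw [h]
    exact ValuationSubring.mem_top x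
  isPrincipalIdealRing' := isPrincipalIdealRing_valuationSubring_int M.inftyVal

@[simp] theorem inftyPlace_toValuationSubring :
    M.inftyPlace.toValuationSubring = M.inftyRing := rfl

/-- When `card ι = d` every residue class mod `d` is a weight: there is an element of degree
`-1`. -/
theorem exists_inftyVal_eq_exp_neg_one (hcard : Fintype.card ι = W.d) :
    ∃ π : L, M.inftyVal π = exp (-1 : ℤ) := by
  classical
  have : NeZero W.d := ⟨W.d_pos.ne'⟩
  let g : ι → Fin W.d := fun i => ⟨W.m i % W.d, Nat.mod_lt _ W.d_pos⟩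
  have hg : Function.Injective g := by
    intro i j hij
    have h1 : W.m i % W.d = W.m j % W.d := congrArg Fin.val hij
    apply W.m_inj (W.m j / W.d) (W.m i / W.d) i j
    have e1 := Nat.div_add_mod (W.m i) W.d
    have e2 := Nat.div_add_mod (W.m j) W.d
    omega
  have hbij : Function.Bijective g := by
    rw [Fintype.bijective_iff_injective_and_card]
    exact ⟨hg, by rw [hcard, Fintype.card_fin]⟩
  obtain ⟨i, hi⟩ := hbij.2 ⟨(W.d - 1) % W.d, Nat.mod_lt _ W.d_pos⟩
  have hi' : W.m i % W.d = (W.d - 1) % W.d := congrArg Fin.val hi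
  have hd1 : (W.d - 1) % W.d = W.d - 1 := Nat.mod_eq_of_lt (Nat.sub_lt W.d_pos one_pos)
  rw [hd1] at hi'
  obtain ⟨c, hc⟩ : ∃ c, c = W.m i / W.d := ⟨_, rfl⟩
  have hmi : W.m i = W.d * c + (W.d - 1) := by
    have := Nat.div_add_mod (W.m i) W.d
    rw [hi', ← hc] at this
    exact this.symm
  -- `π = f i / x ^ (c + 1)`
  have hq : (Pi.single i₀ ((X : k[X]) ^ (c + 1)) : ι → k[X]) ≠ 0 :=
    single_ne_zero' i₀ (pow_ne_zero _ X_ne_zero)
  have hp : (Pi.single i (1 : k[X]) : ι → k[X]) ≠ 0 := single_ne_zero' i one_ne_zero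
  have hevq : ev x f (Pi.single i₀ ((X : k[X]) ^ (c + 1))) ≠ 0 := M.ev_ne_zero hq
  refine ⟨ev x f (Pi.single i (1 : k[X])) / ev x f (Pi.single i₀ ((X : k[X]) ^ (c + 1))), ?_⟩
  rw [map_div₀, M.inftyVal_ev hp, M.inftyVal_ev hq, W.wdeg_single i one_ne_zero,
    W.wdeg_single i₀ (pow_ne_zero _ X_ne_zero), natDegree_one, natDegree_X_pow, M.m_zero,
    ← exp_sub]
  congr 1
  have hdpos := W.d_pos
  push_cast
  rw [hmi]
  push_cast [Nat.cast_sub hdpos]
  ring

/-- The order at infinity is minus the degree. -/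
theorem ord_inftyPlace (hcard : Fintype.card ι = W.d) {z : L} (hz : z ≠ 0) :
    M.inftyPlace.ord z = -M.deg z := by
  rw [Fermat.Agent.S24.PD.place_ord_eq_of_valuationSubring_eq M.inftyPlace M.inftyVal rfl
    (M.exists_inftyVal_eq_exp_neg_one hcard) z, M.inftyVal_apply hz, log_exp]

/-- The order at infinity of an element of `B` is minus its weighted degree. -/
theorem ord_inftyPlace_ev (hcard : Fintype.card ι = W.d) {u : ι → k[X]} (hu : u ≠ 0) :
    M.inftyPlace.ord (ev x f u) = -(W.wdeg u : ℤ) := by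
  classical
  rw [M.ord_inftyPlace hcard (M.ev_ne_zero hu), M.deg_ev hu]

theorem x_ne_zero : x ≠ 0 := by
  intro h
  apply M.x_notMem_inftyRing
  have h0 : (0 : L) ∈ M.inftyRing := M.inftyRing.zero_mem
  exact h ▸ h0

/-- `x` has a pole of order `d` at infinity. -/
theorem ord_inftyPlace_x (hcard : Fintype.card ι = W.d) : M.inftyPlace.ord x = -(W.d : ℤ) := by
  rw [M.ord_inftyPlace hcard M.x_ne_zero]
  have := M.inftyVal_x
  rw [M.inftyVal_apply M.x_ne_zero] at this
  rw [exp_injective this]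

theorem x_inv_mem_inftyRing : x⁻¹ ∈ M.inftyRing := by
  show M.inftyVal x⁻¹ ≤ 1
  rw [map_inv₀, M.inftyVal_x, ← exp_neg, ← exp_zero, exp_le_exp]
  have := W.d_pos
  omega

/-- `x⁻¹` lies in the maximal ideal of the valuation ring at infinity. -/
theorem x_inv_mem_maximalIdeal :
    (⟨x⁻¹, M.x_inv_mem_inftyRing⟩ : M.inftyRing) ∈ IsLocalRing.maximalIdeal M.inftyRing := by
  have key := Fermat.Agent.S24.PD.mem_maximalIdeal_valuationSubring_iff M.inftyVal
    (⟨x⁻¹, M.x_inv_mem_inftyRing⟩ : M.inftyVal.valuationSubring)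
  refine key.mpr ?_
  show M.inftyVal x⁻¹ < 1
  rw [map_inv₀, M.inftyVal_x, ← exp_neg, ← exp_zero, exp_lt_exp]
  have := W.d_pos
  omega

end IsModel

end Fermat.Agent.S27x.Spec.GaussNorm
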