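import Fermat.Agent.S27x.Spec.GaussNorm.Model

/-!
# P-S27 block D3: the Gauss valuation ring of an integral Apéry model

`AperyData A F ι` : a weighted model `B = ⊕ K[x] f_i` of the field `F` over `K` whose structure
constants have coefficients in the valuation ring `A` of `K`, the top ones with unit leading
coefficient.  `D.O` is the valuation ring of the Gauss norm `|∑ p_i(x) f_i| = max |coeff|`:
`z ∈ D.O ↔ z = (∑ p_i(x) f_i) / (∑ q_i(x) f_i)` with `p_i, q_i ∈ A[x]` and `q` primitive.
Main results: `D.O` is a valuation subring, `mem_O_iff` (`B ∩ O = ⊕ A[x] f_i`, orthonormality),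
`valuation_lt_one_iff` (`B ∩ 𝔪_O = 𝔪_A (⊕ A[x] f_i)`), `scal` (same value group).
-/

set_option autoImplicit false
set_option linter.unusedSectionVars false

namespace Fermat.Agent.S27x.Spec.GaussNorm

open Polynomial IsLocalRing

variable {K : Type*} [Field K] {A : ValuationSubring K} {F : Type*} [Field F] [Algebra K F]
  {ι : Type*} [Fintype ι]

/-- A tuple of polynomials over `A` is primitive if it is nonzero modulo the maximal ideal. -/
def IsPrim (q : ι → A[X]) : Prop := ∃ i, (q i).map (residue A) ≠ 0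

theorem not_isPrim_iff {q : ι → A[X]} : ¬ IsPrim q ↔ ∀ i, (q i).map (residue A) = 0 := by
  unfold IsPrim
  push Not
  rfl

theorem map_residue_eq_zero_iff {p : A[X]} :
    p.map (residue A) = 0 ↔ ∀ n, p.coeff n ∈ maximalIdeal A := by
  rw [Polynomial.ext_iff]
  simp only [coeff_map, coeff_zero, residue_eq_zero_iff]

theorem isPrim_iff {q : ι → A[X]} : IsPrim q ↔ ∃ i n, IsUnit ((q i).coeff n) := by
  unfold IsPrim
  constructor
  · rintro ⟨i, hi⟩
    rw [Ne, map_residue_eq_zero_iff] at hi
    push Not at hi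
    obtain ⟨n, hn⟩ := hi
    exact ⟨i, n, by rwa [mem_maximalIdeal, mem_nonunits_iff, not_not] at hn⟩
  · rintro ⟨i, n, hu⟩
    refine ⟨i, fun h => ?_⟩
    have := (map_residue_eq_zero_iff.mp h) n
    rw [mem_maximalIdeal, mem_nonunits_iff] at this
    exact this hu


theorem exists_lift_of_coeff_mem {p : K[X]} (h : ∀ n, p.coeff n ∈ A) :
    ∃ q : A[X], q.map (algebraMap A K) = p := by
  rw [← Polynomial.mem_lifts, Polynomial.lifts_iff_coeff_lifts]
  intro n
  exact ⟨⟨_, h n⟩, rfl⟩

/-- The lift to `A[X]` of a polynomial over `K` with coefficients in `A`. -/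
noncomputable def liftPoly (p : K[X]) (h : ∀ n, p.coeff n ∈ A) : A[X] :=
  Classical.choose (exists_lift_of_coeff_mem h)

theorem liftPoly_map (p : K[X]) (h : ∀ n, p.coeff n ∈ A) :
    (liftPoly p h).map (algebraMap A K) = p :=
  Classical.choose_spec (exists_lift_of_coeff_mem h)

/-- Base change of a tuple from `A` to `K`. -/
noncomputable def toK (p : ι → A[X]) : ι → K[X] := fun i => (p i).map (algebraMap A K)

theorem toK_injective : Function.Injective (toK : (ι → A[X]) → ι → K[X]) := by
  intro p q h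
  funext i
  exact Polynomial.map_injective _ (FaithfulSMul.algebraMap_injective A K) (congrFun h i)

theorem not_isPrim_C_smul {c : A} (hc : c ∈ maximalIdeal A) (u : ι → A[X]) :
    ¬ IsPrim (C c • u) := by
  rw [not_isPrim_iff]
  intro i
  rw [Pi.smul_apply, smul_eq_mul, Polynomial.map_mul, map_C, (residue_eq_zero_iff c).mpr hc,
    C_0, zero_mul]

theorem isPrim_single [DecidableEq ι] (i : ι) {p : A[X]} (hp : p.map (residue A) ≠ 0) :
    IsPrim (Pi.single i p : ι → A[X]) :=
  ⟨i, by rwa [Pi.single_eq_same]⟩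

theorem isPrim_one [DecidableEq ι] (i : ι) : IsPrim (Pi.single i (1 : A[X]) : ι → A[X]) :=
  isPrim_single i (by rw [Polynomial.map_one]; exact one_ne_zero)

theorem IsPrim.ne_zero {u : ι → A[X]} (hu : IsPrim u) : u ≠ 0 := by
  rintro rfl
  obtain ⟨i, hi⟩ := hu
  exact hi (by simp)

/-- **Content**: a nonzero tuple over `K` is a scalar multiple of a primitive tuple over `A`. -/
theorem exists_content {p : ι → K[X]} (hp : p ≠ 0) :
    ∃ (a : K) (p' : ι → A[X]), a ≠ 0 ∧ IsPrim p' ∧ p = C a • toK p' := by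
  classical
  set s : Finset (Σ _ : ι, ℕ) := Finset.univ.sigma fun i => (p i).support with hs
  have hne : s.Nonempty := by
    by_contra h
    rw [Finset.not_nonempty_iff_eq_empty] at h
    apply hp
    funext i
    by_contra hi
    obtain ⟨n, hn⟩ := (Polynomial.support_nonempty.mpr hi)
    have : (⟨i, n⟩ : Σ _ : ι, ℕ) ∈ s := Finset.mem_sigma.mpr ⟨Finset.mem_univ _, hn⟩
    rw [h] at this
    exact absurd this (Finset.notMem_empty _)
  obtain ⟨⟨i₁, n₁⟩, h₁, hmax⟩ :=
    Finset.exists_max_image s (fun t => A.valuation ((p t.1).coeff t.2)) hne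
  have ha : (p i₁).coeff n₁ ≠ 0 := by
    have := (Finset.mem_sigma.mp h₁).2
    exact Polynomial.mem_support_iff.mp this
  set a := (p i₁).coeff n₁ with ha_def
  have hva : A.valuation a ≠ 0 := (A.valuation.ne_zero_iff).mpr ha
  -- all coefficients of `a⁻¹ p` lie in `A`
  have hmem : ∀ i n, a⁻¹ * (p i).coeff n ∈ A := by
    intro i n
    rw [← A.valuation_le_one_iff, map_mul, map_inv₀]
    by_cases hin : (⟨i, n⟩ : Σ _ : ι, ℕ) ∈ s
    · have := hmax ⟨i, n⟩ hin
      rw [inv_mul_le_iff₀ (zero_lt_iff.mpr hva), mul_one]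
      exact this
    · have : (p i).coeff n = 0 := by
        by_contra h0
        exact hin (Finset.mem_sigma.mpr ⟨Finset.mem_univ _, Polynomial.mem_support_iff.mpr h0⟩)
      rw [this, map_zero, mul_zero]
      exact zero_le_one
  have hlift : ∀ i, ∃ q : A[X], q.map (algebraMap A K) = C a⁻¹ * p i := by
    intro i
    rw [← Polynomial.mem_lifts, Polynomial.lifts_iff_coeff_lifts]
    intro n
    rw [coeff_C_mul]
    exact ⟨⟨_, hmem i n⟩, rfl⟩
  choose p' hp' using hlift
  refine ⟨a, p', ha, ?_, ?_⟩
  · rw [isPrim_iff]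
    refine ⟨i₁, n₁, ?_⟩
    have h1 : ((p' i₁).coeff n₁ : K) = 1 := by
      have := congrArg (fun q => q.coeff n₁) (hp' i₁)
      simp only [coeff_map, coeff_C_mul] at this
      rw [← ha_def, inv_mul_cancel₀ ha] at this
      exact this
    have h2 : (p' i₁).coeff n₁ = 1 := Subtype.ext h1
    rw [h2]
    exact isUnit_one
  · funext i
    rw [Pi.smul_apply, smul_eq_mul, toK, hp' i, ← mul_assoc, ← C_mul, mul_inv_cancel₀ ha, C_1,
      one_mul]

/-- Input data of block D3: an Apéry model over `K` with structure constants in `A[X]`, the top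
ones with unit leading coefficient. -/
structure AperyData (A : ValuationSubring K) (F : Type*) [Field F] [Algebra K F] (ι : Type*)
    [Fintype ι] where
  W : Weights ι
  x : F
  f : ι → F
  i₀ : ι
  P : ι → ι → ι → A[X]
  sc : IsStructConst W P
  model : IsModel W x f i₀ (fun i j l => (P i j l).map (algebraMap A K))

namespace AperyData

variable (D : AperyData A F ι)

theorem evK_toK (p : ι → A[X]) : ev D.x D.f (toK p) = ev D.x D.f p := ev_map D.x D.f p

theorem mul (i j : ι) : D.f i * D.f j = ∑ l, aeval D.x (D.P i j l) * D.f l := by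
  rw [D.model.mul i j]
  refine Finset.sum_congr rfl fun l _ => ?_
  rw [aeval_map_algebraMap]

theorem evA_mul (u w : ι → A[X]) : ev D.x D.f u * ev D.x D.f w = ev D.x D.f (star D.P u w) :=
  ev_mul_ev D.x D.f D.mul u w

theorem evA_injective : Function.Injective (ev D.x D.f : (ι → A[X]) → F) := by
  intro u w h
  apply toK_injective
  apply D.model.ev_injective
  rw [evK_toK, evK_toK, h]

theorem evA_eq_zero {u : ι → A[X]} (h : ev D.x D.f u = 0) : u = 0 :=
  D.evA_injective (h.trans (ev_zero D.x D.f).symm)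

theorem evA_C_smul (c : A) (u : ι → A[X]) :
    ev D.x D.f (C c • u) = algebraMap K F c * ev D.x D.f u := by
  rw [ev_smul, aeval_C]
  rfl

theorem evK_C_smul (c : K) (u : ι → K[X]) :
    ev D.x D.f (C c • u) = algebraMap K F c * ev D.x D.f u := by
  rw [ev_smul, aeval_C]

/-- The reduced structure constants, over the residue field of `A`. -/
noncomputable def Pres : ι → ι → ι → (ResidueField A)[X] :=
  fun i j l => (D.P i j l).map (residue A)

theorem scRes : IsStructConst D.W D.Pres := D.sc.map D.W (residue A)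

/-- **Gauss lemma**: the formal product of primitive tuples is primitive. -/
theorem isPrim_star {u w : ι → A[X]} (hu : IsPrim u) (hw : IsPrim w) :
    IsPrim (star D.P u w) := by
  have h := star_map (residue A) D.P u w
  have hu' : (fun i => (u i).map (residue A)) ≠ 0 := by
    obtain ⟨i, hi⟩ := hu
    exact fun h0 => hi (congrFun h0 i)
  have hw' : (fun i => (w i).map (residue A)) ≠ 0 := by
    obtain ⟨i, hi⟩ := hw
    exact fun h0 => hi (congrFun h0 i)
  have hne := D.scRes.star_ne_zero D.W hu' hw'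
  by_contra hcon
  rw [not_isPrim_iff] at hcon
  apply hne
  change star (fun i j l => (D.P i j l).map (residue A)) _ _ = 0
  rw [← h]
  funext l
  exact hcon l

theorem not_isPrim_star_left {u : ι → A[X]} (hu : ¬ IsPrim u) (w : ι → A[X]) :
    ¬ IsPrim (star D.P u w) := by
  rw [not_isPrim_iff] at hu ⊢
  intro l
  have h := congrFun (star_map (residue A) D.P u w) l
  have h' : (star D.P u w l).map (residue A) = star (fun i j l => (D.P i j l).map (residue A))
      (fun i => (u i).map (residue A)) (fun i => (w i).map (residue A)) l := h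
  rw [h']
  have : (fun i => (u i).map (residue A)) = 0 := funext hu
  rw [this, star_zero_left]
  rfl

theorem evA_one [DecidableEq ι] : ev D.x D.f (Pi.single D.i₀ (1 : A[X])) = 1 := by
  rw [ev_single, map_one, one_mul, D.model.f_one]

theorem evA_ne_zero {u : ι → A[X]} (hu : u ≠ 0) : ev D.x D.f u ≠ 0 := fun h => hu (D.evA_eq_zero h)

/-- **The Gauss valuation ring** of the integral model. -/
noncomputable def O : ValuationSubring F where
  carrier := {z | ∃ p q : ι → A[X], IsPrim q ∧ z * ev D.x D.f q = ev D.x D.f p}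
  mul_mem' := by
    rintro z z' ⟨p, q, hq, h⟩ ⟨p', q', hq', h'⟩
    refine ⟨star D.P p p', star D.P q q', D.isPrim_star hq hq', ?_⟩
    rw [← D.evA_mul, ← D.evA_mul, ← h, ← h']
    ring
  one_mem' := by
    classical
    exact ⟨Pi.single D.i₀ 1, Pi.single D.i₀ 1, isPrim_one _, one_mul _⟩
  add_mem' := by
    rintro z z' ⟨p, q, hq, h⟩ ⟨p', q', hq', h'⟩
    refine ⟨star D.P p q' + star D.P q p', star D.P q q', D.isPrim_star hq hq', ?_⟩
    rw [ev_add, ← D.evA_mul, ← D.evA_mul, ← D.evA_mul, ← h, ← h']
    ring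
  zero_mem' := by
    classical
    exact ⟨0, Pi.single D.i₀ 1, isPrim_one _, by rw [zero_mul, ev_zero]⟩
  neg_mem' := by
    rintro z ⟨p, q, hq, h⟩
    exact ⟨-p, q, hq, by rw [ev_neg, neg_mul, h]⟩
  mem_or_inv_mem' := by
    intro z
    obtain ⟨p, q, hq, h⟩ := D.model.frac z
    by_cases hp : p = 0
    · left
      have hz : z = 0 := by
        rw [hp, ev_zero] at h
        exact (mul_eq_zero.mp h).resolve_right (D.model.ev_ne_zero hq)
      classical
      rw [hz]
      exact ⟨0, Pi.single D.i₀ 1, isPrim_one _, by rw [zero_mul, ev_zero]⟩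
    obtain ⟨a, p', ha, hp', rfl⟩ := exists_content (A := A) hp
    obtain ⟨b, q', hb, hq', rfl⟩ := exists_content (A := A) hq
    have h' : z * (algebraMap K F b * ev D.x D.f q') = algebraMap K F a * ev D.x D.f p' := by
      rw [← D.evK_toK, ← D.evK_toK, ← D.evK_C_smul, ← D.evK_C_smul]
      exact h
    have ha' : algebraMap K F a ≠ 0 := (_root_.map_ne_zero _).mpr ha
    have hb' : algebraMap K F b ≠ 0 := (_root_.map_ne_zero _).mpr hb
    rcases A.mem_or_inv_mem (a / b) with hab | hab
    · left
      refine ⟨C (⟨a / b, hab⟩ : A) • p', q', hq', ?_⟩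
      rw [D.evA_C_smul]
      change z * ev D.x D.f q' = algebraMap K F (a / b) * ev D.x D.f p'
      rw [map_div₀]
      field_simp
      linear_combination h'
    · right
      have hz : z ≠ 0 := by
        rintro rfl
        rw [zero_mul] at h'
        exact mul_ne_zero ha' (D.evA_ne_zero (IsPrim.ne_zero hp')) h'.symm
      refine ⟨C (⟨(a / b)⁻¹, hab⟩ : A) • q', p', hp', ?_⟩
      rw [D.evA_C_smul]
      change z⁻¹ * ev D.x D.f p' = algebraMap K F (a / b)⁻¹ * ev D.x D.f q'
      rw [map_inv₀, map_div₀]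
      field_simp
      linear_combination -h'

theorem mem_O_iff' {z : F} :
    z ∈ D.O ↔ ∃ p q : ι → A[X], IsPrim q ∧ z * ev D.x D.f q = ev D.x D.f p := Iff.rfl

theorem evA_mem (p : ι → A[X]) : ev D.x D.f p ∈ D.O := by
  classical
  exact ⟨p, Pi.single D.i₀ 1, isPrim_one _, by rw [D.evA_one, mul_one]⟩

theorem algebraMap_mem (a : A) : algebraMap K F a ∈ D.O := by
  classical
  have := D.evA_mem (C a • Pi.single D.i₀ 1)
  rwa [D.evA_C_smul, D.evA_one, mul_one] at this

theorem x_mem : D.x ∈ D.O := by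
  classical
  have := D.evA_mem (Pi.single D.i₀ X)
  rwa [ev_single, aeval_X, D.model.f_one, mul_one] at this

theorem f_mem (i : ι) : D.f i ∈ D.O := by
  classical
  have := D.evA_mem (Pi.single i 1)
  rwa [ev_single, map_one, one_mul] at this

/-- The value of a primitive tuple is a unit of `O`. -/
theorem inv_evA_mem {q : ι → A[X]} (hq : IsPrim q) : (ev D.x D.f q)⁻¹ ∈ D.O := by
  classical
  refine ⟨Pi.single D.i₀ 1, q, hq, ?_⟩
  rw [D.evA_one, inv_mul_cancel₀ (D.evA_ne_zero (IsPrim.ne_zero hq))]

theorem x_inv_mem : D.x⁻¹ ∈ D.O := by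
  classical
  have hX : IsPrim (Pi.single D.i₀ X : ι → A[X]) :=
    isPrim_single _ (by rw [Polynomial.map_X]; exact X_ne_zero)
  have := D.inv_evA_mem hX
  rwa [ev_single, aeval_X, D.model.f_one, mul_one] at this

theorem valuation_evA_eq_one {q : ι → A[X]} (hq : IsPrim q) : D.O.valuation (ev D.x D.f q) = 1 := by
  have h1 : D.O.valuation (ev D.x D.f q) ≤ 1 := (D.O.valuation_le_one_iff _).mpr (D.evA_mem q)
  have h2 : D.O.valuation (ev D.x D.f q)⁻¹ ≤ 1 := (D.O.valuation_le_one_iff _).mpr (D.inv_evA_mem hq)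
  rw [map_inv₀] at h2
  have h0 : D.O.valuation (ev D.x D.f q) ≠ 0 :=
    (D.O.valuation.ne_zero_iff).mpr (D.evA_ne_zero (IsPrim.ne_zero hq))
  have h3 : 1 ≤ D.O.valuation (ev D.x D.f q) := by
    rwa [inv_le_one₀ (zero_lt_iff.mpr h0)] at h2
  exact le_antisymm h1 h3

/-- A quotient `evA p / evA q` with `q` primitive is small iff `p` is not primitive. -/
theorem valuation_lt_one_iff_of_eq {z : F} {p q : ι → A[X]} (hq : IsPrim q)
    (h : z * ev D.x D.f q = ev D.x D.f p) : D.O.valuation z < 1 ↔ ¬ IsPrim p := by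
  have hzO : z ∈ D.O := ⟨p, q, hq, h⟩
  constructor
  · intro hlt hp
    have hv := congrArg D.O.valuation h
    rw [map_mul, D.valuation_evA_eq_one hq, D.valuation_evA_eq_one hp, mul_one] at hv
    rw [hv] at hlt
    exact lt_irrefl _ hlt
  · intro hp
    refine lt_of_le_of_ne ((D.O.valuation_le_one_iff _).mpr hzO) ?_
    intro h1
    have hz : z ≠ 0 := by
      rintro rfl
      rw [map_zero] at h1
      exact zero_ne_one h1
    have hzinv : z⁻¹ ∈ D.O := by
      rw [← D.O.valuation_le_one_iff, map_inv₀, h1, inv_one]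
    obtain ⟨p', q', hq', h'⟩ := hzinv
    have hprod : ev D.x D.f (star D.P q q') = ev D.x D.f (star D.P p p') := by
      rw [← D.evA_mul, ← D.evA_mul, ← h, ← h']
      field_simp
    have := D.evA_injective hprod
    have h2 := D.isPrim_star hq hq'
    rw [this] at h2
    exact D.not_isPrim_star_left hp p' h2

/-- `B ∩ 𝔪_O = 𝔪_A (⊕ A[x] f_i)`. -/
theorem valuation_evA_lt_one_iff (p : ι → A[X]) :
    D.O.valuation (ev D.x D.f p) < 1 ↔ ∀ i n, (p i).coeff n ∈ maximalIdeal A := by
  classical
  have h : ev D.x D.f p * ev D.x D.f (Pi.single D.i₀ (1 : A[X])) = ev D.x D.f p := by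
    rw [D.evA_one, mul_one]
  rw [D.valuation_lt_one_iff_of_eq (isPrim_one _) h, not_isPrim_iff]
  exact forall_congr' fun i => map_residue_eq_zero_iff

/-- **Orthonormality**: `B ∩ O = ⊕ A[x] f_i`. -/
theorem mem_O_iff (p : ι → K[X]) : ev D.x D.f p ∈ D.O ↔ ∀ i n, (p i).coeff n ∈ A := by
  constructor
  · intro hmem
    by_cases hp : p = 0
    · intro i n
      rw [hp]
      simp
    obtain ⟨a, p₁, ha, hp₁, rfl⟩ := exists_content (A := A) hp
    have haA : a ∈ A := by
      by_contra haA
      have hinv : a⁻¹ ∈ A := (A.mem_or_inv_mem a).resolve_left haA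
      have hmax : (⟨a⁻¹, hinv⟩ : A) ∈ maximalIdeal A := by
        rw [mem_maximalIdeal, mem_nonunits_iff]
        intro hu
        have h1 := (A.valuation_eq_one_iff _).mp hu
        simp only [map_inv₀, inv_eq_one] at h1
        exact haA ((A.valuation_le_one_iff _).mp h1.le)
      rw [D.evK_C_smul, D.evK_toK] at hmem
      obtain ⟨p'', q'', hq'', h⟩ := hmem
      have ha' : algebraMap K F a ≠ 0 := (_root_.map_ne_zero _).mpr ha
      have hprod : ev D.x D.f (star D.P p₁ q'') = ev D.x D.f (C (⟨a⁻¹, hinv⟩ : A) • p'') := by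
        rw [← D.evA_mul, D.evA_C_smul, ← h]
        change _ = algebraMap K F a⁻¹ * _
        rw [map_inv₀]
        field_simp
      have := D.evA_injective hprod
      have h2 := D.isPrim_star hp₁ hq''
      rw [this] at h2
      exact not_isPrim_C_smul hmax p'' h2
    intro i n
    rw [Pi.smul_apply, smul_eq_mul, coeff_C_mul, toK, coeff_map]
    exact A.mul_mem _ _ haA ((p₁ i).coeff n).2
  · intro h
    have hlift : ∀ i, ∃ q : A[X], q.map (algebraMap A K) = p i := by
      intro i
      rw [← Polynomial.mem_lifts, Polynomial.lifts_iff_coeff_lifts]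
      intro n
      exact ⟨⟨_, h i n⟩, rfl⟩
    choose p' hp' using hlift
    have : p = toK p' := funext fun i => (hp' i).symm
    rw [this, D.evK_toK]
    exact D.evA_mem p'

/-- `O ∩ K = A`. -/
theorem algebraMap_mem_iff (a : K) : algebraMap K F a ∈ D.O ↔ a ∈ A := by
  classical
  have h1 : ev D.x D.f (Pi.single D.i₀ (C a) : ι → K[X]) = algebraMap K F a := D.model.ev_C a
  rw [← h1, D.mem_O_iff]
  constructor
  · intro h
    have := h D.i₀ 0
    rwa [Pi.single_eq_same, coeff_C_zero] at this
  · intro h i n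
    by_cases hi : i = D.i₀
    · subst hi
      rw [Pi.single_eq_same, coeff_C]
      split_ifs
      · exact h
      · exact A.zero_mem
    · rw [Pi.single_eq_of_ne hi, coeff_zero]
      exact A.zero_mem

/-- `O` and `A` have the same value group. -/
theorem scal (z : F) (hz : z ≠ 0) : ∃ c : K, c ≠ 0 ∧ D.O.valuation (c • z) = 1 := by
  obtain ⟨p, q, hq, h⟩ := D.model.frac z
  have hp : p ≠ 0 := by
    rintro rfl
    rw [ev_zero] at h
    exact (mul_ne_zero hz (D.model.ev_ne_zero hq)) h
  obtain ⟨a, p', ha, hp', rfl⟩ := exists_content (A := A) hp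
  obtain ⟨b, q', hb, hq', rfl⟩ := exists_content (A := A) hq
  rw [D.evK_C_smul, D.evK_C_smul, D.evK_toK, D.evK_toK] at h
  have ha' : algebraMap K F a ≠ 0 := (_root_.map_ne_zero _).mpr ha
  have hb' : algebraMap K F b ≠ 0 := (_root_.map_ne_zero _).mpr hb
  refine ⟨b / a, div_ne_zero hb ha, ?_⟩
  have h2 : (b / a) • z * ev D.x D.f q' = ev D.x D.f p' := by
    rw [Algebra.smul_def, map_div₀]
    field_simp
    linear_combination h
  have hv := congrArg D.O.valuation h2
  rwa [map_mul, D.valuation_evA_eq_one hq', D.valuation_evA_eq_one hp', mul_one] at hv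

/-- Constructor from structure constants over `K` whose coefficients lie in `A` and whose top
leading coefficients are units of `A`. -/
noncomputable def ofK (A : ValuationSubring K) (W : Weights ι) (x : F) (f : ι → F) (i₀ : ι)
    (PK : ι → ι → ι → K[X]) (M : IsModel W x f i₀ PK)
    (hA : ∀ i j l n, (PK i j l).coeff n ∈ A)
    (htop : ∀ i j, ∃ l, A.valuation (PK i j l).leadingCoeff = 1 ∧
      W.d * (PK i j l).natDegree + W.m l = W.m i + W.m j) : AperyData A F ι := by
  set P : ι → ι → ι → A[X] := fun i j l => liftPoly (PK i j l) (hA i j l) with hPdef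
  have hP : ∀ i j l, (P i j l).map (algebraMap A K) = PK i j l := fun i j l =>
    liftPoly_map (PK i j l) (hA i j l)
  have hinj : Function.Injective (algebraMap A K) := FaithfulSMul.algebraMap_injective A K
  have hdeg : ∀ i j l, (P i j l).natDegree = (PK i j l).natDegree := by
    intro i j l
    rw [← hP i j l, natDegree_map_eq_of_injective hinj]
  have hlc : ∀ i j l, ((P i j l).leadingCoeff : K) = (PK i j l).leadingCoeff := by
    intro i j l
    rw [← hP i j l, leadingCoeff_map_of_injective hinj]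
    rfl
  refine
    { W := W, x := x, f := f, i₀ := i₀, P := P
      sc := ⟨?_, ?_⟩
      model := ?_ }
  · intro i j l hne
    rw [hdeg]
    refine M.sc.deg_le i j l ?_
    rw [← hP i j l]
    exact (Polynomial.map_ne_zero_iff hinj).mpr hne
  · intro i j
    obtain ⟨l, hv, hl⟩ := htop i j
    refine ⟨l, ?_, by rw [hdeg]; exact hl⟩
    rw [A.valuation_eq_one_iff, hlc]
    exact hv
  · have : (fun i j l => (P i j l).map (algebraMap A K)) = PK := by
      funext i j l
      exact hP i j l
    rw [this]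
    exact M

section ofK

variable (A) (W : Weights ι) (x : F) (f : ι → F) (i₀ : ι)
    (PK : ι → ι → ι → K[X]) (M : IsModel W x f i₀ PK)
    (hA : ∀ i j l n, (PK i j l).coeff n ∈ A)
    (htop : ∀ i j, ∃ l, A.valuation (PK i j l).leadingCoeff = 1 ∧
      W.d * (PK i j l).natDegree + W.m l = W.m i + W.m j)

@[simp] theorem ofK_W : (ofK A W x f i₀ PK M hA htop).W = W := rfl
@[simp] theorem ofK_x : (ofK A W x f i₀ PK M hA htop).x = x := rfl
@[simp] theorem ofK_f : (ofK A W x f i₀ PK M hA htop).f = f := rfl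
@[simp] theorem ofK_i₀ : (ofK A W x f i₀ PK M hA htop).i₀ = i₀ := rfl

theorem ofK_P_map (i j l : ι) :
    ((ofK A W x f i₀ PK M hA htop).P i j l).map (algebraMap A K) = PK i j l := by
  exact liftPoly_map (PK i j l) (hA i j l)

end ofK

end AperyData

end Fermat.Agent.S27x.Spec.GaussNorm
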