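import Mathlib

/-!
# P-S27 block D3, formal core: weighted structure constants

`Weights ι` : a positive integer `d` and weights `m : ι → ℕ` which are pairwise incongruent mod `d`
(`m_inj`).  For a tuple `u : ι → R[X]` the weighted degree is
`wdeg u = max_i (d * natDegree (u i) + m i)` (over the `i` with `u i ≠ 0`).
`star P u w` is the formal product of two tuples with respect to structure constants
`P : ι → ι → ι → R[X]`.  If the structure constants are *weighted* (`IsStructConst`: degree bound
and a unit leading coefficient in exactly the top weight) and `R` is a domain then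
`wdeg (star P u w) = wdeg u + wdeg w`, in particular `star P u w ≠ 0` for `u, w ≠ 0`.
-/

set_option autoImplicit false
set_option linter.unusedSectionVars false

namespace Fermat.Agent.S27x.Spec.GaussNorm

open Polynomial

/-- A system of weights: `d > 0` and `m : ι → ℕ` pairwise incongruent modulo `d`. -/
structure Weights (ι : Type*) where
  d : ℕ
  d_pos : 0 < d
  m : ι → ℕ
  m_inj : ∀ a b i j, d * a + m i = d * b + m j → i = j

variable {ι : Type*} [Fintype ι]

section defs

variable {R : Type*} [CommRing R]

/-- The formal product of two tuples with respect to the structure constants `P`. -/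
noncomputable def star (P : ι → ι → ι → R[X]) (u w : ι → R[X]) : ι → R[X] :=
  fun l => ∑ i, ∑ j, u i * w j * P i j l

open scoped Classical in
/-- The weighted degree of a tuple of polynomials. -/
noncomputable def Weights.wdeg (W : Weights ι) (u : ι → R[X]) : ℕ :=
  (Finset.univ.filter fun i => u i ≠ 0).sup fun i => W.d * (u i).natDegree + W.m i

/-- Weighted structure constants. -/
structure IsStructConst (W : Weights ι) (P : ι → ι → ι → R[X]) : Prop where
  deg_le : ∀ i j l, P i j l ≠ 0 → W.d * (P i j l).natDegree + W.m l ≤ W.m i + W.m j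
  top : ∀ i j, ∃ l, IsUnit (P i j l).leadingCoeff ∧
    W.d * (P i j l).natDegree + W.m l = W.m i + W.m j

end defs

namespace Weights

variable (W : Weights ι) {R : Type*} [CommRing R]

theorem le_wdeg {u : ι → R[X]} {i : ι} (hi : u i ≠ 0) :
    W.d * (u i).natDegree + W.m i ≤ W.wdeg u := by
  classical
  unfold wdeg
  exact Finset.le_sup (f := fun i => W.d * (u i).natDegree + W.m i)
    (Finset.mem_filter.mpr ⟨Finset.mem_univ i, hi⟩)

theorem wdeg_le_iff {u : ι → R[X]} {N : ℕ} :
    W.wdeg u ≤ N ↔ ∀ i, u i ≠ 0 → W.d * (u i).natDegree + W.m i ≤ N := by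
  classical
  unfold wdeg
  rw [Finset.sup_le_iff]
  constructor
  · intro h i hi
    exact h i (Finset.mem_filter.mpr ⟨Finset.mem_univ i, hi⟩)
  · intro h i hi
    exact h i (Finset.mem_filter.mp hi).2

theorem wdeg_zero : W.wdeg (0 : ι → R[X]) = 0 := by
  apply Nat.le_zero.mp
  rw [wdeg_le_iff]
  intro i hi
  exact absurd rfl hi

theorem exists_wdeg_eq {u : ι → R[X]} (hu : u ≠ 0) :
    ∃ i, u i ≠ 0 ∧ W.d * (u i).natDegree + W.m i = W.wdeg u := by
  classical
  have hne : (Finset.univ.filter fun i => u i ≠ 0).Nonempty := by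
    by_contra h
    rw [Finset.not_nonempty_iff_eq_empty] at h
    apply hu
    funext i
    by_contra hi
    have : i ∈ (Finset.univ.filter fun i => u i ≠ 0) :=
      Finset.mem_filter.mpr ⟨Finset.mem_univ i, hi⟩
    rw [h] at this
    exact absurd this (Finset.notMem_empty i)
  obtain ⟨i, hi, h⟩ := Finset.exists_mem_eq_sup _ hne
    (fun i => W.d * (u i).natDegree + W.m i)
  exact ⟨i, (Finset.mem_filter.mp hi).2, h.symm⟩

/-- The index of maximal weight is unique: all other indices have strictly smaller weight. -/
theorem lt_wdeg_of_ne {u : ι → R[X]} {i j : ι} (hi : W.d * (u i).natDegree + W.m i = W.wdeg u)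
    (hj : u j ≠ 0) (hij : j ≠ i) : W.d * (u j).natDegree + W.m j < W.wdeg u := by
  refine lt_of_le_of_ne (W.le_wdeg hj) ?_
  intro h
  exact hij (W.m_inj _ _ _ _ (h.trans hi.symm))

theorem weight_inj {a b : ℕ} {i j : ι} (h : W.d * a + W.m i = W.d * b + W.m j) :
    a = b ∧ i = j := by
  have hij := W.m_inj a b i j h
  subst hij
  have := Nat.add_right_cancel h
  exact ⟨Nat.eq_of_mul_eq_mul_left W.d_pos this, rfl⟩

end Weights

section star

variable {R : Type*} [CommRing R] (W : Weights ι) {P : ι → ι → ι → R[X]}

theorem star_zero_left (P : ι → ι → ι → R[X]) (w : ι → R[X]) : star P 0 w = 0 := by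
  funext l; simp [star]

theorem star_zero_right (P : ι → ι → ι → R[X]) (u : ι → R[X]) : star P u 0 = 0 := by
  funext l; simp [star]

theorem star_add_left (P : ι → ι → ι → R[X]) (u u' w : ι → R[X]) :
    star P (u + u') w = star P u w + star P u' w := by
  funext l
  simp only [star, Pi.add_apply, add_mul, Finset.sum_add_distrib]

theorem star_add_right (P : ι → ι → ι → R[X]) (u w w' : ι → R[X]) :
    star P u (w + w') = star P u w + star P u w' := by
  funext l
  simp only [star, Pi.add_apply, mul_add, add_mul, Finset.sum_add_distrib]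

theorem star_smul_left (P : ι → ι → ι → R[X]) (c : R[X]) (u w : ι → R[X]) :
    star P (c • u) w = c • star P u w := by
  funext l
  simp only [star, Pi.smul_apply, smul_eq_mul, Finset.mul_sum, mul_assoc]

theorem star_smul_right (P : ι → ι → ι → R[X]) (c : R[X]) (u w : ι → R[X]) :
    star P u (c • w) = c • star P u w := by
  funext l
  simp only [star, Pi.smul_apply, smul_eq_mul, Finset.mul_sum]
  refine Finset.sum_congr rfl fun i _ => Finset.sum_congr rfl fun j _ => ?_
  ring

/-- Compatibility of `star` with a ring homomorphism of the coefficients. -/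
theorem star_map {S : Type*} [CommRing S] (g : R →+* S) (P : ι → ι → ι → R[X])
    (u w : ι → R[X]) :
    (fun l => (star P u w l).map g) =
      star (fun i j l => (P i j l).map g) (fun i => (u i).map g) (fun i => (w i).map g) := by
  funext l
  simp only [star, Polynomial.map_sum, Polynomial.map_mul]

/-- Each term of the formal product obeys the weight bound. -/
theorem IsStructConst.term_le (hP : IsStructConst W P) {u w : ι → R[X]} {i j l : ι}
    (h : u i * w j * P i j l ≠ 0) :
    W.d * (u i * w j * P i j l).natDegree + W.m l ≤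
      (W.d * (u i).natDegree + W.m i) + (W.d * (w j).natDegree + W.m j) := by
  have hPne : P i j l ≠ 0 := fun h0 => h (by rw [h0, mul_zero])
  have h1 : (u i * w j * P i j l).natDegree ≤
      (u i).natDegree + (w j).natDegree + (P i j l).natDegree :=
    (natDegree_mul_le).trans (Nat.add_le_add_right natDegree_mul_le _)
  have h2 := hP.deg_le i j l hPne
  calc W.d * (u i * w j * P i j l).natDegree + W.m l
      ≤ W.d * ((u i).natDegree + (w j).natDegree + (P i j l).natDegree) + W.m l :=
        Nat.add_le_add_right (Nat.mul_le_mul_left _ h1) _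
    _ = W.d * (u i).natDegree + W.d * (w j).natDegree +
          (W.d * (P i j l).natDegree + W.m l) := by ring
    _ ≤ W.d * (u i).natDegree + W.d * (w j).natDegree + (W.m i + W.m j) :=
        Nat.add_le_add_left h2 _
    _ = _ := by ring

/-- The weighted degree is submultiplicative. -/
theorem IsStructConst.wdeg_star_le (hP : IsStructConst W P) (u w : ι → R[X]) :
    W.wdeg (star P u w) ≤ W.wdeg u + W.wdeg w := by
  classical
  rw [Weights.wdeg_le_iff]
  intro l hl
  set N := W.wdeg u + W.wdeg w with hN
  -- each nonzero term satisfies the bound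
  have hterm : ∀ i j, u i * w j * P i j l ≠ 0 →
      W.d * (u i * w j * P i j l).natDegree + W.m l ≤ N := by
    intro i j h
    have hui : u i ≠ 0 := fun h0 => h (by rw [h0, zero_mul, zero_mul])
    have hwj : w j ≠ 0 := fun h0 => h (by rw [h0, mul_zero, zero_mul])
    exact (hP.term_le W h).trans (Nat.add_le_add (W.le_wdeg hui) (W.le_wdeg hwj))
  -- some term is nonzero, hence `m l ≤ N`
  have hml : W.m l ≤ N := by
    by_contra hlt
    apply hl
    simp only [star]
    refine Finset.sum_eq_zero fun i _ => Finset.sum_eq_zero fun j _ => ?_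
    by_contra h
    exact hlt ((Nat.le_add_left _ _).trans (hterm i j h))
  have hdeg : (star P u w l).natDegree ≤ (N - W.m l) / W.d := by
    simp only [star]
    refine natDegree_sum_le_of_forall_le _ _ fun i _ =>
      natDegree_sum_le_of_forall_le _ _ fun j _ => ?_
    by_cases h : u i * w j * P i j l = 0
    · rw [h, natDegree_zero]; exact Nat.zero_le _
    · rw [Nat.le_div_iff_mul_le W.d_pos, mul_comm]
      have := hterm i j h
      omega
  have h3 : W.d * ((N - W.m l) / W.d) ≤ N - W.m l := Nat.mul_div_le _ _
  have h4 := Nat.mul_le_mul_left W.d hdeg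
  omega

/-- **Leading terms multiply**: over a domain the weighted degree is multiplicative, and the
product of two nonzero tuples is nonzero. -/
theorem IsStructConst.wdeg_star [IsDomain R] (hP : IsStructConst W P) {u w : ι → R[X]}
    (hu : u ≠ 0) (hw : w ≠ 0) :
    star P u w ≠ 0 ∧ W.wdeg (star P u w) = W.wdeg u + W.wdeg w := by
  classical
  obtain ⟨i₁, hi₁, hi₁w⟩ := W.exists_wdeg_eq hu
  obtain ⟨j₁, hj₁, hj₁w⟩ := W.exists_wdeg_eq hw
  obtain ⟨l₁, hlu, hl₁⟩ := hP.top i₁ j₁
  have hPne : P i₁ j₁ l₁ ≠ 0 := by
    intro h0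
    rw [h0, leadingCoeff_zero] at hlu
    exact not_isUnit_zero hlu
  set n := (u i₁).natDegree + (w j₁).natDegree + (P i₁ j₁ l₁).natDegree with hn
  have hdn : W.d * n + W.m l₁ = W.wdeg u + W.wdeg w := by
    rw [← hi₁w, ← hj₁w, hn]
    have := hl₁
    calc W.d * ((u i₁).natDegree + (w j₁).natDegree + (P i₁ j₁ l₁).natDegree) + W.m l₁
        = W.d * (u i₁).natDegree + W.d * (w j₁).natDegree +
            (W.d * (P i₁ j₁ l₁).natDegree + W.m l₁) := by ring
      _ = W.d * (u i₁).natDegree + W.d * (w j₁).natDegree + (W.m i₁ + W.m j₁) := by rw [hl₁]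
      _ = _ := by ring
  -- the other terms have smaller degree
  have hother : ∀ i j, (i, j) ≠ (i₁, j₁) → (u i * w j * P i j l₁).coeff n = 0 := by
    intro i j hij
    by_cases h : u i * w j * P i j l₁ = 0
    · rw [h, coeff_zero]
    apply coeff_eq_zero_of_natDegree_lt
    have hui : u i ≠ 0 := fun h0 => h (by rw [h0, zero_mul, zero_mul])
    have hwj : w j ≠ 0 := fun h0 => h (by rw [h0, mul_zero, zero_mul])
    have h1 := hP.term_le W h
    have h2 : (W.d * (u i).natDegree + W.m i) + (W.d * (w j).natDegree + W.m j) <
        W.wdeg u + W.wdeg w := by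
      by_cases hi : i = i₁
      · have hj : j ≠ j₁ := by
          intro hj; exact hij (by rw [hi, hj])
        have := W.lt_wdeg_of_ne hj₁w hwj hj
        have := W.le_wdeg hui
        omega
      · have := W.lt_wdeg_of_ne hi₁w hui hi
        have := W.le_wdeg hwj
        omega
    have h3 : W.d * (u i * w j * P i j l₁).natDegree < W.d * n := by omega
    exact lt_of_mul_lt_mul_left h3 (Nat.zero_le _)
  -- the top coefficient
  have hcoeff : (star P u w l₁).coeff n =
      (u i₁).leadingCoeff * (w j₁).leadingCoeff * (P i₁ j₁ l₁).leadingCoeff := by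
    simp only [star, finsetSum_coeff]
    rw [Finset.sum_eq_single i₁, Finset.sum_eq_single j₁]
    · have h1 : (u i₁ * w j₁).natDegree = (u i₁).natDegree + (w j₁).natDegree :=
        natDegree_mul hi₁ hj₁
      rw [hn, ← h1, coeff_mul_degree_add_degree, leadingCoeff_mul]
    · intro j _ hj
      exact hother i₁ j (fun h => hj (Prod.ext_iff.mp h).2)
    · intro h; exact absurd (Finset.mem_univ _) h
    · intro i _ hi
      exact Finset.sum_eq_zero fun j _ => hother i j (fun h => hi (Prod.ext_iff.mp h).1)
    · intro h; exact absurd (Finset.mem_univ _) h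
  have hne : (star P u w l₁).coeff n ≠ 0 := by
    rw [hcoeff]
    exact mul_ne_zero (mul_ne_zero (leadingCoeff_ne_zero.mpr hi₁) (leadingCoeff_ne_zero.mpr hj₁))
      (leadingCoeff_ne_zero.mpr hPne)
  have hl₁ne : star P u w l₁ ≠ 0 := by
    intro h0; rw [h0, coeff_zero] at hne; exact hne rfl
  refine ⟨fun h0 => hl₁ne (by rw [h0]; rfl), le_antisymm (hP.wdeg_star_le W u w) ?_⟩
  have h5 : n ≤ (star P u w l₁).natDegree := le_natDegree_of_ne_zero hne
  have h6 := W.le_wdeg hl₁ne
  have h7 := Nat.mul_le_mul_left W.d h5
  omega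

theorem IsStructConst.star_ne_zero [IsDomain R] (hP : IsStructConst W P) {u w : ι → R[X]}
    (hu : u ≠ 0) (hw : w ≠ 0) : star P u w ≠ 0 :=
  (hP.wdeg_star W hu hw).1

theorem IsStructConst.wdeg_star_eq [IsDomain R] (hP : IsStructConst W P) {u w : ι → R[X]}
    (hu : u ≠ 0) (hw : w ≠ 0) : W.wdeg (star P u w) = W.wdeg u + W.wdeg w :=
  (hP.wdeg_star W hu hw).2

/-- Reduction of weighted structure constants along a ring homomorphism to a nontrivial ring. -/
theorem IsStructConst.map {S : Type*} [CommRing S] [Nontrivial S] (g : R →+* S)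
    (hP : IsStructConst W P) : IsStructConst W (fun i j l => (P i j l).map g) where
  deg_le i j l h := by
    have hne : P i j l ≠ 0 := fun h0 => h (by simp [h0])
    have h1 := hP.deg_le i j l hne
    have h2 : ((P i j l).map g).natDegree ≤ (P i j l).natDegree := natDegree_map_le
    have := Nat.mul_le_mul_left W.d h2
    omega
  top i j := by
    obtain ⟨l, hu, hl⟩ := hP.top i j
    have hg : g (P i j l).leadingCoeff ≠ 0 := (hu.map g).ne_zero
    refine ⟨l, ?_, ?_⟩
    · rw [leadingCoeff_map_of_leadingCoeff_ne_zero g hg]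
      exact hu.map g
    · rw [natDegree_map_of_leadingCoeff_ne_zero g hg]
      exact hl

end star

end Fermat.Agent.S27x.Spec.GaussNorm
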