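import Fermat.Agent.S27x.Spec.GaussNorm.ModelDegree
import Fermat.Agent.S27x.Desc.CurveOfTranscendental

/-!
# P-S27 block D3: the function field of a weighted model is a curve (helper30)

For `M : IsModel W x f i₀ P` over an algebraically closed field `k` of characteristic zero, the
field `L = Frac (⊕ k[x] f_i)` is a curve in the sense of the Prelude (`IsCurveOver k L`) and is
essentially of finite type over `k`.
-/

set_option autoImplicit false
set_option linter.unusedSectionVars false

namespace Fermat.Agent.S27x.Spec.GaussNorm

open Polynomial IntermediateField AlgebraicCurve

variable {ι : Type*} [Fintype ι]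

namespace IsModel

variable {W : Weights ι} {k L : Type*} [Field k] [Field L] [Algebra k L]
  {x : L} {f : ι → L} {i₀ : ι} {P : ι → ι → ι → k[X]} (M : IsModel W x f i₀ P)

include M

/-- **the function field of a weighted model is a curve in the sense of the Prelude.** -/
theorem isCurveOver [IsAlgClosed k] [CharZero k] : IsCurveOver k L :=
  haveI := M.finiteDimensional
  Fermat.Agent.S27x.Desc.isCurveOver_of_transcendental M.transcendental

/-- **the function field of a weighted model is essentially of finite type.** -/
theorem essFiniteType : Algebra.EssFiniteType k L :=
  haveI := M.finiteDimensional
  Fermat.Agent.S27x.Desc.essFiniteType_of_transcendental x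

end IsModel

end Fermat.Agent.S27x.Spec.GaussNorm
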